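/-
Programme T1a (S19), brick G7 DICT (helper22): **`RatLevel M`** of `T1/Dict59/Iface2.lean`:
finitely many places of `ℚ̄·F_M` are rational over ONE number field `L ⊇ L₀`, normal over `ℚ`
(from `ES/GAL/OpenStab12.hasLevel_place`).
-/
import Mathlib
import Fermat.Agent.T1.Dict59.Iface2
import Fermat.Agent.ES.GAL.OpenStab12

set_option autoImplicit false
set_option linter.unusedSectionVars false
set_option linter.style.haveILetI false

open AlgebraicCurve ModularCurve IntermediateField
open Fermat.Agent.RED.Interface4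

namespace Fermat.Agent.T1.Dict22.RatLevel

open Fermat.Agent.T1.Dict59 Fermat.Agent.ES.GAL.OpenStab12

/-- **(D-RAT)** finitely many places are rational over one number field `L ⊇ L₀`, normal over `ℚ`. -/
theorem ratLevel (M : ℕ) [NeZero M] : RatLevel M := by
  intro L₀ _ T
  classical
  obtain ⟨L, hL, H⟩ := hasLevel_forall_finset T
    (fun w σ => arithmeticGalois (modularFunctionFieldFull M) σ • w = w)
    (fun w _ => hasLevel_place M w)
  haveI := hL
  haveI h0 : Algebra.IsAlgebraic ℚ Qbar := AlgebraicClosure.isAlgebraic ℚ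
  haveI : IsAlgClosure ℚ Qbar := ⟨inferInstance, h0⟩
  haveI : Normal ℚ Qbar := IsAlgClosure.normal ℚ Qbar
  have hle : L₀ ⊔ L ≤ IntermediateField.normalClosure ℚ ↥(L₀ ⊔ L) Qbar :=
    (L₀ ⊔ L).le_normalClosure
  refine ⟨IntermediateField.normalClosure ℚ ↥(L₀ ⊔ L) Qbar, le_sup_left.trans hle,
    normalClosure.is_finiteDimensional ℚ ↥(L₀ ⊔ L) Qbar, normalClosure.normal ℚ ↥(L₀ ⊔ L) Qbar, ?_⟩
  intro w hw σ hσ
  exact H σ (fun a ha => hσ a (hle (le_sup_right (a := L₀) ha))) w hw

end Fermat.Agent.T1.Dict22.RatLevel
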