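/-
Programme T1a (S19), brick G7 DICT, slice (4) (helper22): `TorsionFinite M`, `TorsionLevel M`
of `T1/Dict59/Iface.lean`, from `ES/KUM/FiniteTorsion15` and `ES/GAL/OpenStab12`.
-/
import Mathlib
import Fermat.Agent.T1.Dict59.Iface
import Fermat.Agent.ES.KUM.FiniteTorsion15
import Fermat.Agent.ES.GAL.OpenStab12

set_option autoImplicit false

open AlgebraicCurve ModularCurve IntermediateField
open Fermat.Agent.RED.Interface4

namespace Fermat.Agent.T1.Dict22.Torsion

open Fermat.Agent.T1.Dict59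

/-- **(D-TORS)** `J₀(M)[n]` is finite. -/
theorem torsionFinite (M : ℕ) [NeZero M] : TorsionFinite M := by
  intro n hn
  have : NeZero n := ⟨hn.ne'⟩
  exact Fermat.Agent.ES.KUM.FiniteTorsion15.finite_setOf_nsmul_eq_zero M n

/-- **(D-LEVEL)** `J₀(M)[n]` is pointwise fixed by `Gal(ℚ̄/L)` for a number field `L`. -/
theorem torsionLevel (M : ℕ) [NeZero M] : TorsionLevel M := by
  intro n hn
  obtain ⟨L, hL, H⟩ := Fermat.Agent.ES.GAL.OpenStab12.hasLevel_torsion M n
    (torsionFinite M n hn)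
  exact ⟨L, hL, fun σ hσ y hy => H σ hσ y hy⟩

end Fermat.Agent.T1.Dict22.Torsion
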