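/-
Programme T1a (S19), brick G7 DICT (helper22): **(P3) the torsion section**: divisors of degree `0`
representing the `a`-torsion points of `J₀(M)`, all supported on places rational over ONE number field.
-/
import Mathlib
import Fermat.Agent.T1.Dict59.Iface2
import Fermat.Agent.T1.Dict22.Torsion
import Fermat.Agent.T1.Dict22.RatLevel

set_option autoImplicit false
set_option linter.unusedSectionVars false
set_option linter.style.haveILetI false

noncomputable section

open AlgebraicCurve ModularCurve IntermediateField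
open Fermat.Agent.RED.Interface4 Fermat.Agent.T1.Dict59

namespace Fermat.Agent.T1.Dict22.TorsSection

/-- Rationality of a place is monotone in the field. -/
theorem isRatPlace_mono {M : ℕ} {L₀ L : IntermediateField ℚ Qbar} (h : L₀ ≤ L)
    {w : Place Qbar (Fbar M)} (hw : IsRatPlace L₀ w) : IsRatPlace L w :=
  fun σ hσ => hw σ (fun a ha => hσ a (h ha))

/-- The `a`-torsion of `J₀(M)` is finite (`a ≠ 0`). -/
theorem finite_torsionBy (M : ℕ) [NeZero M] (a : ℤ) (ha : a ≠ 0) :
    Finite ↥(Submodule.torsionBy ℤ (JZero M) a) := by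
  have hn : 0 < a.natAbs := Int.natAbs_pos.2 ha
  have hfin := Torsion.torsionFinite M a.natAbs hn
  have hsub : ((Submodule.torsionBy ℤ (JZero M) a : Submodule ℤ (JZero M)) : Set (JZero M)) ⊆
      {y : JZero M | a.natAbs • y = 0} := by
    intro y hy
    have h1 : a • y = 0 := (Submodule.mem_torsionBy_iff a y).1 hy
    show a.natAbs • y = 0
    rcases Int.natAbs_eq a with h | h
    · rw [h, natCast_zsmul] at h1
      exact h1
    · rw [h, neg_smul, natCast_zsmul, neg_eq_zero] at h1
      exact h1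
  exact (hfin.subset hsub).to_subtype

/-- **(P3)**, general form: the section over a number field `L₀ ⊇ K₀`, normal over `ℚ`. -/
theorem exists_torsion_section' (M : ℕ) [NeZero M] (a : ℤ) (ha : a ≠ 0)
    (K₀ : IntermediateField ℚ Qbar) [FiniteDimensional ℚ K₀] :
    ∃ (L₀ : IntermediateField ℚ Qbar) (_ : FiniteDimensional ℚ L₀) (_ : Normal ℚ L₀)
      (_ : K₀ ≤ L₀)
      (D : ↥(Submodule.torsionBy ℤ (JZero M) a) → Divisor.degZero (K := Qbar) (F := Fbar M)),
      (∀ y, Pic0.mk (D y) = (y : JZero M)) ∧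
      ∀ y w, (D y : Divisor Qbar (Fbar M)) w ≠ 0 → IsRatPlace L₀ w := by
  classical
  haveI := finite_torsionBy M a ha
  haveI : Fintype ↥(Submodule.torsionBy ℤ (JZero M) a) := Fintype.ofFinite _
  choose D hD using fun y : ↥(Submodule.torsionBy ℤ (JZero M) a) =>
    Pic0.mk_surjective (y : JZero M)
  obtain ⟨L₀, hle, hfin, hnorm, hrat⟩ := RatLevel.ratLevel M K₀
    (Finset.univ.biUnion fun y => (D y : Divisor Qbar (Fbar M)).support)
  refine ⟨L₀, hfin, hnorm, hle, D, hD, ?_⟩
  intro y w hw
  apply hrat w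
  rw [Finset.mem_biUnion]
  exact ⟨y, Finset.mem_univ y, Finsupp.mem_support_iff.2 hw⟩

/-- **(P3)** the torsion section. -/
theorem exists_torsion_section (M : ℕ) [NeZero M] (a : ℤ) (ha : a ≠ 0) :
    ∃ (L₀ : IntermediateField ℚ Qbar) (_ : FiniteDimensional ℚ L₀)
      (D : ↥(Submodule.torsionBy ℤ (JZero M) a) → Divisor.degZero (K := Qbar) (F := Fbar M)),
      (∀ y, Pic0.mk (D y) = (y : JZero M)) ∧
      ∀ y w, (D y : Divisor Qbar (Fbar M)) w ≠ 0 → IsRatPlace L₀ w := by
  obtain ⟨L₀, hfin, -, -, D, hD, hrat⟩ := exists_torsion_section' M a ha ⊥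
  exact ⟨L₀, hfin, D, hD, hrat⟩

end Fermat.Agent.T1.Dict22.TorsSection
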