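/-
Programme T1a (S19), brick G7 DICT (helper22, for helper67's `DivPt`): **the Dedekind chart over the
constant field**: `F / K` a function field with generator `s` (`X0.FF.IsGen K s`, `K` of characteristic
zero), `B` = the integral closure of `K[s]` in `F`.  For a place `w` at which `s` is regular
* some `x ∈ B` has `ord_w x = 1`                                     (`exists_ord_eq_one`);
* for every other such place `w'` some `x ∈ B` vanishes at `w` and not at `w'`
                                                                      (`exists_pos_ord_zero`);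
* an element regular at all such places lies in `B`                   (`isIntegral_of_forall_mem`).
-/
import Mathlib
import Fermat.Agent.X0.FFSum
import Fermat.Agent.X0.FFDedekind

set_option autoImplicit false
set_option linter.unusedSectionVars false
set_option linter.style.haveILetI false

open AlgebraicCurve IsDedekindDomain
open Fermat.Agent.X0.FF Fermat.Agent.X0

namespace Fermat.Agent.T1.Dict22.ChartDedekind

variable {K F : Type*} [Field K] [Field F] [Algebra K F] [CharZero K] {s : F}

/-- Some element of the chart has a simple zero at `w`. -/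
theorem exists_ord_eq_one (hs : IsGen K s) (w : Place K F) (hw : s ∈ w.toValuationSubring) :
    ∃ x : F, IsIntegral (Algebra.adjoin K {s}) x ∧ w.ord x = 1 := by
  haveI := isDedekindDomain_intRing hs
  haveI := isFractionRing_intRing hs
  have hB : ∀ b : intRing K s, algebraMap (intRing K s) F b ∈ w.toValuationSubring :=
    intRing_le_of_mem w hw
  have hP : Place.ofHeightOneSpectrum (K := K) (F := F) (FFDedekind.centreSpec w hB) = w :=
    FFDedekind.ofHeightOneSpectrum_centreSpec w hB
  obtain ⟨π, hπ⟩ := (FFDedekind.centreSpec w hB).intValuation_exists_uniformizer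
  refine ⟨algebraMap (intRing K s) F π, π.2, ?_⟩
  rw [← hP, FFDedekind.ord_ofHeightOneSpectrum, HeightOneSpectrum.valuation_of_algebraMap, hπ,
    WithZero.log_exp, neg_neg]

/-- Two distinct places of the chart are separated by an element of the chart. -/
theorem exists_pos_ord_zero (hs : IsGen K s) (w w' : Place K F)
    (hw : s ∈ w.toValuationSubring) (hw' : s ∈ w'.toValuationSubring) (hne : w ≠ w') :
    ∃ x : F, IsIntegral (Algebra.adjoin K {s}) x ∧ 0 < w.ord x ∧ w'.ord x = 0 := by
  haveI := isDedekindDomain_intRing hs
  haveI := isFractionRing_intRing hs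
  have hB : ∀ b : intRing K s, algebraMap (intRing K s) F b ∈ w.toValuationSubring :=
    intRing_le_of_mem w hw
  have hB' : ∀ b : intRing K s, algebraMap (intRing K s) F b ∈ w'.toValuationSubring :=
    intRing_le_of_mem w' hw'
  set P := FFDedekind.centreSpec w hB with hPdef
  set P' := FFDedekind.centreSpec w' hB' with hP'def
  have hP : Place.ofHeightOneSpectrum (K := K) (F := F) P = w :=
    FFDedekind.ofHeightOneSpectrum_centreSpec w hB
  have hP' : Place.ofHeightOneSpectrum (K := K) (F := F) P' = w' :=
    FFDedekind.ofHeightOneSpectrum_centreSpec w' hB'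
  have hPP' : P ≠ P' := by
    intro h
    apply hne
    rw [← hP, ← hP', h]
  -- `P ⊄ P'`
  have hnle : ¬ P.asIdeal ≤ P'.asIdeal := by
    intro hle
    apply hPP'
    apply HeightOneSpectrum.ext
    exact (P.isMaximal.eq_of_le P'.isMaximal.ne_top hle)
  obtain ⟨b, hbP, hbP'⟩ := SetLike.not_le_iff_exists.1 hnle
  have hb0 : b ≠ 0 := by
    rintro rfl
    exact hbP' (zero_mem _)
  refine ⟨algebraMap (intRing K s) F b, b.2, ?_, ?_⟩
  · rw [← hP, FFDedekind.ord_ofHeightOneSpectrum_algebraMap_pos_iff P hb0]
    exact hbP
  · have h1 := FFDedekind.ord_ofHeightOneSpectrum_algebraMap_nonneg (K := K) (F := F) P' b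
    have h2 : ¬ 0 < (Place.ofHeightOneSpectrum (K := K) (F := F) P').ord
        (algebraMap (intRing K s) F b) := by
      rw [FFDedekind.ord_ofHeightOneSpectrum_algebraMap_pos_iff P' hb0]
      exact hbP'
    rw [← hP']
    omega

/-- An element regular at all places of the chart lies in the chart. -/
theorem isIntegral_of_forall_mem (hs : IsGen K s) {x : F}
    (hx : ∀ w : Place K F, s ∈ w.toValuationSubring → x ∈ w.toValuationSubring) :
    IsIntegral (Algebra.adjoin K {s}) x := by
  haveI := isDedekindDomain_intRing hs
  haveI := isFractionRing_intRing hs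
  -- `x` has valuation `≤ 1` at all height one primes of the chart
  have h1 : ∀ P : HeightOneSpectrum (intRing K s), P.valuation F x ≤ 1 := by
    intro P
    set w := Place.ofHeightOneSpectrum (K := K) (F := F) P with hwdef
    have hsw : s ∈ w.toValuationSubring := by
      have := FFDedekind.algebraMap_mem_ofHeightOneSpectrum (K := K) (F := F) P
        (⟨s, isIntegral_algebraMap (x := genA K s)⟩ : intRing K s)
      exact this
    have hxw := hx w hsw
    rcases eq_or_ne x 0 with rfl | hx0
    · rw [map_zero]; exact zero_le
    have hord : 0 ≤ w.ord x := ffp_ord_nonneg_of_mem w hxw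
    rw [hwdef, FFDedekind.ord_ofHeightOneSpectrum] at hord
    have hne : P.valuation F x ≠ 0 := (Valuation.ne_zero_iff _).2 hx0
    rw [← WithZero.exp_log hne, ← WithZero.exp_zero, WithZero.exp_le_exp]
    omega
  obtain ⟨y, hy⟩ := (IsDedekindDomain.HeightOneSpectrum.mem_integers_of_valuation_le_one F x h1)
  rw [← hy]
  exact y.2

end Fermat.Agent.T1.Dict22.ChartDedekind
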