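/-
Programme T1a (S19), brick G7 DICT, slice D-EXH (helper22), file 1 (Mathlib only):
**an element integral over `K[t]` becomes integral over `K[t⁻¹]` after multiplication by a high power
of `t⁻¹`.**
-/
import Mathlib

set_option autoImplicit false

open Polynomial

namespace Fermat.Agent.T1.Dict22.Scale

variable {K F : Type*} [Field K] [Field F] [Algebra K F]

/-- A monic polynomial over `F` with coefficients in a subalgebra `S` makes its roots integral over
`S`. -/
theorem isIntegral_of_coeff_mem (S : Subalgebra K F) (q : F[X]) (hq : q.Monic)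
    (hcoeff : ∀ i, q.coeff i ∈ S) (x : F) (hx : q.eval x = 0) : IsIntegral S x := by
  have hl : q ∈ Polynomial.lifts (algebraMap S F) := by
    rw [Polynomial.lifts_iff_coeff_lifts]
    intro n
    exact ⟨⟨q.coeff n, hcoeff n⟩, rfl⟩
  obtain ⟨q', hq', -, hmonic⟩ := Polynomial.lifts_and_natDegree_eq_and_monic hl hq
  refine ⟨q', hmonic, ?_⟩
  rw [Polynomial.eval₂_eq_eval_map, hq', hx]

/-- Elements of `K[t]` times a high power of `t⁻¹` lie in `K[t⁻¹]`. -/
theorem exists_mul_inv_pow_mem {t : F} (ht : t ≠ 0) {a : F} (ha : a ∈ Algebra.adjoin K {t}) :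
    ∃ N : ℕ, ∀ e : ℕ, N ≤ e → a * t⁻¹ ^ e ∈ Algebra.adjoin K {t⁻¹} := by
  have htinv : t⁻¹ ∈ Algebra.adjoin K {t⁻¹} := Algebra.subset_adjoin (Set.mem_singleton _)
  induction ha using Algebra.adjoin_induction with
  | mem x hx =>
      rw [Set.mem_singleton_iff] at hx
      subst hx
      refine ⟨1, fun e he => ?_⟩
      obtain ⟨e', rfl⟩ : ∃ e', e = e' + 1 := ⟨e - 1, by omega⟩
      rw [pow_succ, ← mul_assoc, mul_comm x, mul_assoc, mul_inv_cancel₀ ht, mul_one]
      exact pow_mem htinv _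
  | algebraMap r =>
      exact ⟨0, fun e _ => mul_mem (Subalgebra.algebraMap_mem _ r) (pow_mem htinv _)⟩
  | add x y _ _ hx hy =>
      obtain ⟨Nx, hNx⟩ := hx
      obtain ⟨Ny, hNy⟩ := hy
      refine ⟨max Nx Ny, fun e he => ?_⟩
      rw [add_mul]
      exact add_mem (hNx e (le_trans (le_max_left _ _) he)) (hNy e (le_trans (le_max_right _ _) he))
  | mul x y _ _ hx hy =>
      obtain ⟨Nx, hNx⟩ := hx
      obtain ⟨Ny, hNy⟩ := hy
      refine ⟨Nx + Ny, fun e he => ?_⟩
      obtain ⟨e', rfl⟩ : ∃ e', e = Nx + e' := ⟨e - Nx, by omega⟩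
      have : x * y * t⁻¹ ^ (Nx + e') = (x * t⁻¹ ^ Nx) * (y * t⁻¹ ^ e') := by
        rw [pow_add]; ring
      rw [this]
      exact mul_mem (hNx Nx le_rfl) (hNy e' (by omega))

/-- **Scaling**: if `c` is integral over `K[t]`, then `t⁻¹ ^ m * c` is integral over `K[t⁻¹]` for
all large `m`. -/
theorem exists_isIntegral_inv_pow_mul {t : F} (ht : t ≠ 0) {c : F}
    (hc : IsIntegral (Algebra.adjoin K {t}) c) :
    ∃ n : ℕ, ∀ m : ℕ, n ≤ m → IsIntegral (Algebra.adjoin K {t⁻¹}) (t⁻¹ ^ m * c) := by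
  classical
  obtain ⟨p, hp, hroot⟩ := hc
  set pF : F[X] := p.map (algebraMap (Algebra.adjoin K {t}) F) with hpF
  have hpFm : pF.Monic := hp.map _
  have hpFroot : pF.eval c = 0 := by
    rw [hpF, ← Polynomial.eval₂_eq_eval_map]; exact hroot
  have hpFcoeff : ∀ i, pF.coeff i ∈ Algebra.adjoin K {t} := by
    intro i
    rw [hpF, Polynomial.coeff_map]
    exact (p.coeff i).2
  -- the uniform exponent
  choose N hN using fun i => exists_mul_inv_pow_mem (K := K) ht (hpFcoeff i)
  refine ⟨(Finset.range (pF.natDegree + 1)).sup N, fun m hm => ?_⟩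
  have hroot' : (Polynomial.scaleRoots pF (t⁻¹ ^ m)).eval (t⁻¹ ^ m * c) = 0 := by
    have := Polynomial.scaleRoots_eval₂_eq_zero (RingHom.id F) (p := pF) (r := c) (s := t⁻¹ ^ m)
      (by rw [Polynomial.eval₂_id]; exact hpFroot)
    rwa [Polynomial.eval₂_id, RingHom.id_apply] at this
  refine isIntegral_of_coeff_mem (Algebra.adjoin K {t⁻¹}) _
    ((Polynomial.monic_scaleRoots_iff _).2 hpFm) (fun i => ?_) _ hroot'
  rw [Polynomial.coeff_scaleRoots]
  rcases lt_trichotomy i pF.natDegree with hi | hi | hi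
  · -- genuine coefficient
    rw [← pow_mul]
    apply hN i
    have h1 : N i ≤ m :=
      le_trans (Finset.le_sup (f := N) (Finset.mem_range.2 (by omega))) hm
    have h2 : 1 ≤ pF.natDegree - i := by omega
    calc N i ≤ m := h1
      _ = m * 1 := (mul_one m).symm
      _ ≤ m * (pF.natDegree - i) := Nat.mul_le_mul_left m h2
  · subst hi
    rw [Nat.sub_self, pow_zero, mul_one, hpFm.coeff_natDegree]
    exact one_mem _
  · rw [Polynomial.coeff_eq_zero_of_natDegree_lt hi, zero_mul]
    exact zero_mem _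

end Fermat.Agent.T1.Dict22.Scale
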