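/-
Programme T1a (S19), brick G7 DICT (helper22): **the integral closure commutes with an algebraic
extension of the constant field** (abstract form of `ChartSpan` of `T1/Dict59/Iface2.lean`).

`K ⊆ K'` fields, `F / K`, `F' / K'` fields, `ι : F → F'` compatible with the constants.  Hypotheses:
* every element of `F'` is a finite sum `∑ ι e_i · b_i` (`b_i ∈ K'`)                       (`hrep`);
* a family `S` of pairs `(σ, σ_F)`, `σ_F` an endomorphism of `F'` fixing `ι F` and acting as `σ` on the
  constants, such that the elements of `K'` fixed by all `σ` lie in `K`                       (`hfix`);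
* an additive map `Λ : F' → F` with `Λ (ι e · b) = e · λ b`, `λ : K' → K` a `K`-linear retraction.
Conclusion: an element of `F'` integral over `K'[ι t]` lies in the `K'`-span of the image of the
integral closure of `K[t]` in `F`.

Proof: descent of integrality along `Λ` (`isIntegral_of_map`), and an Artin-style induction on the
length of a representation `∑ ι e_i · b_i` (`mem_span_of_sum`): normalise one `b_i` to `1`; if all
`b_i ∈ K` the element comes from `F`; otherwise some `σ` moves some `b_j`, `σ y - y` is shorter, and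
`y - c (σ y - y)` is shorter for a suitable constant `c`.
-/
import Mathlib
import Fermat.Agent.T1.Dict59.Iface
import Fermat.Agent.T1.Dict22.Scale

set_option autoImplicit false
set_option linter.unusedSectionVars false

noncomputable section

open Polynomial
open Fermat.Agent.T1.Dict59

namespace Fermat.Agent.T1.Dict22.ChartSpanGen

variable {K K' F F' : Type*} [Field K] [Field K'] [Field F] [Field F'] [Algebra K K']
  [Algebra K F] [Algebra K' F'] (ι : F →+* F')

/-- The products `ι e · b`. -/
def genSet : Set F' := {x | ∃ (e : F) (b : K'), x = ι e * algebraMap K' F' b}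

section Retraction

variable (lam : K' →ₗ[K] K) (Lam : F' →+ F)
  (hrep : ∀ y : F', y ∈ AddSubmonoid.closure (genSet (K' := K') ι))
  (hlam : ∀ a : K, lam (algebraMap K K' a) = a)
  (hLam : ∀ (e : F) (b : K'), Lam (ι e * algebraMap K' F' b) = e * algebraMap K F (lam b))

include hrep hLam in
/-- `Λ` is `F`-linear. -/
theorem Lam_mul (e : F) (y : F') : Lam (ι e * y) = e * Lam y := by
  induction hrep y using AddSubmonoid.closure_induction with
  | mem x hx =>
    obtain ⟨e', b, rfl⟩ := hx
    rw [← mul_assoc, ← map_mul, hLam, hLam, mul_assoc]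
  | zero => rw [mul_zero, map_zero, mul_zero]
  | add x y _ _ hx hy => rw [mul_add, map_add, hx, hy, map_add, mul_add]

include hlam hLam in
theorem Lam_one : Lam 1 = 1 := by
  have h := hLam 1 1
  rw [map_one, map_one, one_mul] at h
  rw [h, one_mul]
  have : lam 1 = 1 := by
    have := hlam 1
    rwa [map_one] at this
  rw [this, map_one]

include hLam in
/-- `Λ` maps `K'[ι t]` into `K[t]`. -/
theorem Lam_mem_adjoin (t : F) {a : F'} (ha : a ∈ Algebra.adjoin K' {ι t}) :
    Lam a ∈ Algebra.adjoin K {t} := by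
  rw [Algebra.adjoin_singleton_eq_range_aeval] at ha
  obtain ⟨p, rfl⟩ := ha
  have h1 : (Polynomial.aeval (ι t)) p =
      ∑ i ∈ Finset.range (p.natDegree + 1), ι (t ^ i) * algebraMap K' F' (p.coeff i) := by
    rw [Polynomial.aeval_eq_sum_range]
    refine Finset.sum_congr rfl fun i _ => ?_
    rw [Algebra.smul_def, map_pow, mul_comm]
  change Lam ((Polynomial.aeval (ι t)) p) ∈ _
  rw [h1, map_sum]
  refine Subalgebra.sum_mem _ fun i _ => ?_
  rw [hLam]
  exact Subalgebra.mul_mem _ (Subalgebra.pow_mem _ (Algebra.subset_adjoin (Set.mem_singleton t)) i)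
    (Subalgebra.algebraMap_mem _ _)

include hrep hlam hLam in
/-- **Descent of integrality.** -/
theorem isIntegral_of_map (t z : F) (h : IsIntegral (Algebra.adjoin K' {ι t}) (ι z)) :
    IsIntegral (Algebra.adjoin K {t}) z := by
  obtain ⟨p, hp, hpz⟩ := h
  set n := p.natDegree with hn
  -- the coefficients
  have hcmem : ∀ j : ℕ, Lam ((p.coeff j : Algebra.adjoin K' {ι t}) : F') ∈ Algebra.adjoin K {t} :=
    fun j => Lam_mem_adjoin ι lam Lam hLam t (p.coeff j).2
  let c : ℕ → Algebra.adjoin K {t} := fun j => ⟨_, hcmem j⟩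
  -- the equation
  have h1 : ∑ j ∈ Finset.range (n + 1),
      ((p.coeff j : Algebra.adjoin K' {ι t}) : F') * (ι z) ^ j = 0 := by
    rw [Polynomial.eval₂_eq_sum_range] at hpz
    exact hpz
  have h2 : ∑ j ∈ Finset.range (n + 1), ((c j : Algebra.adjoin K {t}) : F) * z ^ j = 0 := by
    have h3 := congrArg Lam h1
    rw [map_sum, map_zero] at h3
    rw [← h3]
    refine Finset.sum_congr rfl fun j _ => ?_
    have h4 : ((p.coeff j : Algebra.adjoin K' {ι t}) : F') * (ι z) ^ j =
        ι (z ^ j) * ((p.coeff j : Algebra.adjoin K' {ι t}) : F') := by rw [map_pow, mul_comm]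
    rw [h4, Lam_mul ι lam Lam hrep hLam, mul_comm]
  have hlead : ((c n : Algebra.adjoin K {t}) : F) = 1 := by
    show Lam ((p.coeff n : Algebra.adjoin K' {ι t}) : F') = 1
    rw [hn, hp.coeff_natDegree]
    exact Lam_one ι lam Lam hlam hLam
  rw [Finset.sum_range_succ, hlead, one_mul] at h2
  -- the monic polynomial
  let r : (Algebra.adjoin K {t})[X] := ∑ j ∈ Finset.range n, Polynomial.C (c j) * Polynomial.X ^ j
  have hrdeg : r.degree < n := by
    refine (Polynomial.degree_sum_le _ _).trans_lt ?_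
    refine (Finset.sup_lt_iff (WithBot.bot_lt_coe n)).2 ?_
    intro j hj
    refine (Polynomial.degree_C_mul_X_pow_le j (c j)).trans_lt ?_
    exact Nat.cast_lt.2 (Finset.mem_range.1 hj)
  refine ⟨Polynomial.X ^ n + r, Polynomial.monic_X_pow_add hrdeg, ?_⟩
  rw [Polynomial.eval₂_add, Polynomial.eval₂_pow, Polynomial.eval₂_X, Polynomial.eval₂_finsetSum,
    add_comm]
  rw [← h2]
  congr 1
  refine Finset.sum_congr rfl fun j _ => ?_
  rw [Polynomial.eval₂_mul, Polynomial.eval₂_C, Polynomial.eval₂_pow, Polynomial.eval₂_X]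
  rfl

end Retraction

section Action

variable (S : Set ((K' →+* K') × (F' →+* F')))
  (hS1 : ∀ p ∈ S, ∀ e : F, p.2 (ι e) = ι e)
  (hS2 : ∀ p ∈ S, ∀ b : K', p.2 (algebraMap K' F' b) = algebraMap K' F' (p.1 b))

include hS1 hS2 in
/-- The endomorphisms preserve integrality over `K'[ι t]`. -/
theorem isIntegral_map_of_mem (t : F) {p : (K' →+* K') × (F' →+* F')} (hp : p ∈ S) {y : F'}
    (hy : IsIntegral (Algebra.adjoin K' {ι t}) y) :
    IsIntegral (Algebra.adjoin K' {ι t}) (p.2 y) := by
  have hA : ∀ a : Algebra.adjoin K' {ι t}, p.2 (a : F') ∈ Algebra.adjoin K' {ι t} := by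
    rintro ⟨a, ha⟩
    show p.2 a ∈ Algebra.adjoin K' {ι t}
    induction ha using Algebra.adjoin_induction with
    | mem x hx =>
      rw [Set.mem_singleton_iff] at hx
      rw [hx, hS1 p hp]
      exact Algebra.subset_adjoin (Set.mem_singleton _)
    | algebraMap r =>
      rw [hS2 p hp]
      exact Subalgebra.algebraMap_mem _ _
    | add x y _ _ hx hy => rw [map_add]; exact add_mem hx hy
    | mul x y _ _ hx hy => rw [map_mul]; exact mul_mem hx hy
  let φ : Algebra.adjoin K' {ι t} →+* Algebra.adjoin K' {ι t} :=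
    (p.2.comp (algebraMap (Algebra.adjoin K' {ι t}) F')).codRestrict (Algebra.adjoin K' {ι t}) hA
  exact IsIntegral.map_of_comp_eq φ p.2 (by ext a; rfl) hy

end Action

section Main

variable (S : Set ((K' →+* K') × (F' →+* F')))
  (hι : ∀ a : K, ι (algebraMap K F a) = algebraMap K' F' (algebraMap K K' a))
  (hS1 : ∀ p ∈ S, ∀ e : F, p.2 (ι e) = ι e)
  (hS2 : ∀ p ∈ S, ∀ b : K', p.2 (algebraMap K' F' b) = algebraMap K' F' (p.1 b))
  (hfix : ∀ b : K', (∀ p ∈ S, p.1 b = b) → ∃ a : K, algebraMap K K' a = b)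
  (lam : K' →ₗ[K] K) (Lam : F' →+ F)
  (hrep : ∀ y : F', y ∈ AddSubmonoid.closure (genSet (K' := K') ι))
  (hlam : ∀ a : K, lam (algebraMap K K' a) = a)
  (hLam : ∀ (e : F) (b : K'), Lam (ι e * algebraMap K' F' b) = e * algebraMap K F (lam b))

/-- The sum `∑_{i ∈ s} ι (e i) · b i`. -/
def psi (s : Finset ℕ) (e : ℕ → F) (b : ℕ → K') : F' :=
  ∑ i ∈ s, ι (e i) * algebraMap K' F' (b i)

theorem psi_erase (s : Finset ℕ) (e : ℕ → F) (b : ℕ → K') {i : ℕ} (hb : b i = 0) :
    psi ι (s.erase i) e b = psi ι s e b := by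
  unfold psi
  exact Finset.sum_erase s (by rw [hb, map_zero, mul_zero])

theorem psi_smul (s : Finset ℕ) (e : ℕ → F) (b : ℕ → K') (c : K') :
    psi ι s e (fun i => c * b i) = algebraMap K' F' c * psi ι s e b := by
  unfold psi
  rw [Finset.mul_sum]
  refine Finset.sum_congr rfl fun i _ => ?_
  rw [map_mul]; ring

theorem psi_sub (s : Finset ℕ) (e : ℕ → F) (b b' : ℕ → K') :
    psi ι s e (fun i => b i - b' i) = psi ι s e b - psi ι s e b' := by
  unfold psi
  rw [← Finset.sum_sub_distrib]
  refine Finset.sum_congr rfl fun i _ => ?_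
  rw [map_sub, mul_sub]

include hS1 hS2 in
theorem map_psi {p : (K' →+* K') × (F' →+* F')} (hp : p ∈ S) (s : Finset ℕ) (e : ℕ → F)
    (b : ℕ → K') : p.2 (psi ι s e b) = psi ι s e (fun i => p.1 (b i)) := by
  unfold psi
  rw [map_sum]
  refine Finset.sum_congr rfl fun i _ => ?_
  rw [map_mul, hS1 p hp, hS2 p hp]

theorem isIntegral_algebraMap_mul (t : F) (c : K') {y : F'}
    (hy : IsIntegral (Algebra.adjoin K' {ι t}) y) :
    IsIntegral (Algebra.adjoin K' {ι t}) (algebraMap K' F' c * y) := by
  have h1 : IsIntegral (Algebra.adjoin K' {ι t}) (algebraMap K' F' c) := by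
    have : algebraMap K' F' c = algebraMap (Algebra.adjoin K' {ι t}) F'
        (algebraMap K' (Algebra.adjoin K' {ι t}) c) := rfl
    rw [this]
    exact isIntegral_algebraMap
  exact h1.mul hy

include hι hS1 hS2 hfix hrep hlam hLam in
/-- **The Artin-style induction.** -/
theorem mem_span_of_sum (t : F) (n : ℕ) :
    ∀ (s : Finset ℕ), s.card ≤ n → ∀ (e : ℕ → F) (b : ℕ → K'),
      IsIntegral (Algebra.adjoin K' {ι t}) (psi ι s e b) →
      psi ι s e b ∈ Submodule.span K' (ι '' (C0 (K := K) t : Set F)) := by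
  classical
  induction n with
  | zero =>
    intro s hs e b _
    have : s = ∅ := Finset.card_eq_zero.1 (Nat.le_zero.1 hs)
    subst this
    unfold psi
    rw [Finset.sum_empty]
    exact zero_mem _
  | succ n ih =>
    intro s hs e b hy
    rcases s.eq_empty_or_nonempty with rfl | ⟨i₁, hi₁⟩
    · unfold psi
      rw [Finset.sum_empty]
      exact zero_mem _
    have hcard : ∀ i ∈ s, (s.erase i).card ≤ n := fun i hi => by
      rw [Finset.card_erase_of_mem hi]; omega
    by_cases hb : b i₁ = 0
    · rw [← psi_erase ι s e b hb] at hy ⊢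
      exact ih _ (hcard i₁ hi₁) e b hy
    -- normalise `b i₁ = 1`
    set b₁ : ℕ → K' := fun i => (b i₁)⁻¹ * b i with hb₁
    have hb₁1 : b₁ i₁ = 1 := inv_mul_cancel₀ hb
    have hy₁eq : psi ι s e b₁ = algebraMap K' F' (b i₁)⁻¹ * psi ι s e b := psi_smul ι s e b _
    have hy₁ : IsIntegral (Algebra.adjoin K' {ι t}) (psi ι s e b₁) := by
      rw [hy₁eq]
      exact isIntegral_algebraMap_mul ι t _ hy
    suffices h : psi ι s e b₁ ∈ Submodule.span K' (ι '' (C0 (K := K) t : Set F)) by
      have h2 : psi ι s e b = (b i₁) • psi ι s e b₁ := by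
        rw [hy₁eq, Algebra.smul_def, ← mul_assoc, ← map_mul, mul_inv_cancel₀ hb, map_one, one_mul]
      rw [h2]
      exact Submodule.smul_mem _ _ h
    by_cases hall : ∀ i ∈ s, ∃ a : K, algebraMap K K' a = b₁ i
    · -- everything comes from `F`
      have hall' : ∀ i : ℕ, ∃ a : K, i ∈ s → algebraMap K K' a = b₁ i := by
        intro i
        by_cases hi : i ∈ s
        · obtain ⟨a, ha⟩ := hall i hi
          exact ⟨a, fun _ => ha⟩
        · exact ⟨0, fun h => absurd h hi⟩
      choose a ha using hall'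
      set z : F := ∑ i ∈ s, e i * algebraMap K F (a i) with hz
      have hιz : ι z = psi ι s e b₁ := by
        rw [hz, map_sum]
        unfold psi
        refine Finset.sum_congr rfl fun i hi => ?_
        rw [map_mul, hι, ha i hi]
      rw [← hιz] at hy₁ ⊢
      have hzint := isIntegral_of_map ι lam Lam hrep hlam hLam t z hy₁
      exact Submodule.subset_span ⟨z, (mem_C0_iff t z).2 hzint, rfl⟩
    · -- some `b₁ i₀` is moved by some `σ`
      push Not at hall
      obtain ⟨i₀, hi₀, hi₀K⟩ := hall
      have hmove : ∃ p ∈ S, p.1 (b₁ i₀) ≠ b₁ i₀ := by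
        by_contra hcon
        push Not at hcon
        obtain ⟨a, ha⟩ := hfix (b₁ i₀) hcon
        exact hi₀K a ha
      obtain ⟨p, hp, hpb⟩ := hmove
      -- `d = σ y₁ - y₁`
      set bd : ℕ → K' := fun i => p.1 (b₁ i) - b₁ i with hbd
      have hdeq : psi ι s e bd = p.2 (psi ι s e b₁) - psi ι s e b₁ := by
        rw [map_psi ι S hS1 hS2 hp, ← psi_sub]
      have hdint : IsIntegral (Algebra.adjoin K' {ι t}) (psi ι s e bd) := by
        rw [hdeq]
        exact (isIntegral_map_of_mem ι S hS1 hS2 t hp hy₁).sub hy₁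
      have hbd1 : bd i₁ = 0 := by
        show p.1 (b₁ i₁) - b₁ i₁ = 0
        rw [hb₁1, map_one, sub_self]
      have hd : psi ι s e bd ∈ Submodule.span K' (ι '' (C0 (K := K) t : Set F)) := by
        rw [← psi_erase ι s e bd hbd1] at hdint ⊢
        exact ih _ (hcard i₁ hi₁) e bd hdint
      -- `y' = y₁ - c d`
      have hden : p.1 (b₁ i₀) - b₁ i₀ ≠ 0 := sub_ne_zero.2 hpb
      set c : K' := b₁ i₀ / (p.1 (b₁ i₀) - b₁ i₀) with hc
      set b' : ℕ → K' := fun i => b₁ i - c * bd i with hb'
      have hb'0 : b' i₀ = 0 := by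
        show b₁ i₀ - c * (p.1 (b₁ i₀) - b₁ i₀) = 0
        rw [hc, div_mul_cancel₀ _ hden, sub_self]
      have hy'eq : psi ι s e b' = psi ι s e b₁ - algebraMap K' F' c * psi ι s e bd := by
        rw [← psi_smul, ← psi_sub]
      have hy'int : IsIntegral (Algebra.adjoin K' {ι t}) (psi ι s e b') := by
        rw [hy'eq]
        exact hy₁.sub (isIntegral_algebraMap_mul ι t c hdint)
      have hy' : psi ι s e b' ∈ Submodule.span K' (ι '' (C0 (K := K) t : Set F)) := by
        rw [← psi_erase ι s e b' hb'0] at hy'int ⊢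
        exact ih _ (hcard i₀ hi₀) e b' hy'int
      have hfinal : psi ι s e b₁ = psi ι s e b' + c • psi ι s e bd := by
        rw [hy'eq, Algebra.smul_def]; ring
      rw [hfinal]
      exact add_mem hy' (Submodule.smul_mem _ _ hd)

/-- Every finite sum of generators is a `psi`. -/
theorem exists_psi_of_list (l : List F') (hl : ∀ x ∈ l, x ∈ genSet (K' := K') ι) :
    ∃ (e : ℕ → F) (b : ℕ → K'), l.sum = psi ι (Finset.range l.length) e b := by
  induction l with
  | nil => exact ⟨fun _ => 0, fun _ => 0, by simp [psi]⟩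
  | cons x l ih =>
    obtain ⟨e, b, hsum⟩ := ih (fun y hy => hl y (List.mem_cons_of_mem x hy))
    obtain ⟨e₀, b₀, rfl⟩ := hl x List.mem_cons_self
    refine ⟨fun i => if i = l.length then e₀ else e i, fun i => if i = l.length then b₀ else b i, ?_⟩
    rw [List.sum_cons, List.length_cons, hsum]
    unfold psi
    rw [Finset.sum_range_succ]
    beta_reduce
    rw [if_pos rfl, if_pos rfl, add_comm]
    congr 1
    refine Finset.sum_congr rfl fun i hi => ?_
    have : i ≠ l.length := (Finset.mem_range.1 hi).ne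
    rw [if_neg this, if_neg this]

include hι hS1 hS2 hfix hrep hlam hLam in
/-- **The integral closure commutes with the extension of constants.** -/
theorem mem_span_of_isIntegral (t : F) (y : F')
    (hy : IsIntegral (Algebra.adjoin K' {ι t}) y) :
    y ∈ Submodule.span K' (ι '' (C0 (K := K) t : Set F)) := by
  obtain ⟨l, hl, rfl⟩ := AddSubmonoid.exists_list_of_mem_closure (hrep y)
  obtain ⟨e, b, hsum⟩ := exists_psi_of_list ι l hl
  rw [hsum] at hy ⊢
  exact mem_span_of_sum ι S hι hS1 hS2 hfix lam Lam hrep hlam hLam t _ _ le_rfl e b hy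

end Main

end Fermat.Agent.T1.Dict22.ChartSpanGen
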