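/-
Programme T1a (S19), brick G7 DICT (helper22): **`ChartSpan M`** of `T1/Dict59/Iface2.lean`:
`C_0(ℚ̄) = ℚ̄ · cL (C_0(L))` — an element of `ℚ̄·F_M` integral over `ℚ̄[cL t]` is a `ℚ̄`-linear combination
of images of elements of `L·F_M` integral over `L[t]`.

Instance of `ChartSpanGen.mem_span_of_isIntegral` with: the coefficientwise action of `Gal(ℚ̄/L)`
(`arithmeticRingAut`), the representation `ℚ̄·F_M = ∑ cL(L·F_M)·ℚ̄` and the coefficientwise retraction of
helper67's `Dict67/CoeffFixGen`.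
-/
import Mathlib
import Fermat.Agent.T1.Dict59.Iface2
import Fermat.Agent.T1.Dict67.CoeffFixGen
import Fermat.Agent.T1.Dict22.ChartSpanGen

set_option autoImplicit false
set_option linter.unusedSectionVars false
set_option linter.style.haveILetI false
set_option synthInstance.maxHeartbeats 400000
set_option maxHeartbeats 1000000

noncomputable section

open HahnSeries AlgebraicCurve ModularCurve IntermediateField
open Fermat.Agent.RED.Interface4 Fermat.Agent.RED.DESC Fermat.Agent.T1.Dict59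
open Fermat.Agent.T1.Dict67

namespace Fermat.Agent.T1.Dict22.ChartSpan

variable (M : ℕ) (L : IntermediateField ℚ Qbar)

/-- `cL` on constants. -/
theorem cL_const (a : L) :
    cL M L (algebraMap L (FK M L) a) = algebraMap Qbar (Fbar M) (algebraMap L Qbar a) := by
  apply Subtype.ext
  show coeffMap (algebraMap L Qbar) (algebraMap L (LaurentSeries L) a) =
    algebraMap Qbar (LaurentSeries Qbar) (algebraMap L Qbar a)
  exact CoeffDescent1.coeffMap_algebraMap_of_ringHom _ a

/-- an element of `ℚ̄` fixed by `Gal(ℚ̄ / L)` lies in `L`. -/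
theorem mem_of_fixed' (x : Qbar)
    (h : ∀ σ : Qbar ≃ₐ[ℚ] Qbar, (∀ a ∈ L, σ a = a) → σ x = x) : x ∈ L := by
  haveI h0 : Algebra.IsAlgebraic ℚ Qbar := AlgebraicClosure.isAlgebraic ℚ
  haveI : IsAlgClosure ℚ Qbar := ⟨inferInstance, h0⟩
  haveI : IsGalois ℚ Qbar := IsAlgClosure.isGalois ℚ Qbar
  have h1 := InfiniteGalois.fixedField_fixingSubgroup (k := ℚ) (K := Qbar) L
  rw [← h1]
  intro σ
  exact h σ.1 (fun a ha => σ.2 ⟨a, ha⟩)

/-- The family of pairs `(σ, coefficientwise σ)` for `σ ∈ Gal(ℚ̄/L)`. -/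
def galPairs : Set ((Qbar →+* Qbar) × (Fbar M →+* Fbar M)) :=
  {p | ∃ σ : Qbar ≃ₐ[ℚ] Qbar, (∀ a ∈ L, σ a = a) ∧
    p = ((σ : Qbar →+* Qbar), (arithmeticRingAut (modularFunctionFieldFull M) σ).toRingHom)}

theorem galPairs_fix (p) (hp : p ∈ galPairs M L) (e : FK M L) : p.2 (cL M L e) = cL M L e := by
  obtain ⟨σ, hσ, rfl⟩ := hp
  apply Subtype.ext
  show coeffMap (σ : Qbar →+* Qbar) (coeffMap (algebraMap L Qbar) (e : LaurentSeries L)) =
    coeffMap (algebraMap L Qbar) (e : LaurentSeries L)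
  rw [coeffMap_coeffMap]
  exact coeffMap_congr (RingHom.ext fun a => hσ _ a.2) _

theorem galPairs_const (p) (hp : p ∈ galPairs M L) (b : Qbar) :
    p.2 (algebraMap Qbar (Fbar M) b) = algebraMap Qbar (Fbar M) (p.1 b) := by
  obtain ⟨σ, hσ, rfl⟩ := hp
  exact arithmeticRingAut_algebraMap (modularFunctionFieldFull M) σ b

theorem galPairs_fixed (b : Qbar) (h : ∀ p ∈ galPairs M L, p.1 b = b) :
    ∃ a : L, algebraMap L Qbar a = b := by
  have hb : b ∈ L := mem_of_fixed' L b (fun σ hσ => h _ ⟨σ, hσ, rfl⟩)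
  exact ⟨⟨b, hb⟩, rfl⟩

/-- `ℚ̄·F_M` is the additive span of the products `cL e · b`. -/
theorem rep (y : Fbar M) :
    y ∈ AddSubmonoid.closure (ChartSpanGen.genSet (K' := Qbar) (cL M L)) := by
  haveI h0 : Algebra.IsAlgebraic ℚ Qbar := AlgebraicClosure.isAlgebraic ℚ
  haveI : Algebra.IsAlgebraic L Qbar := Algebra.IsAlgebraic.tower_top (K := ℚ) L
  have h1 : (y : LaurentSeries Qbar) ∈ genW (K := L) (K' := Qbar) (modularFunctionFieldFull M) :=
    mem_genW_of_mem_adjV _ (mem_adjV_of_mem_laurentBaseChange (K := L) _ y.2)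
  suffices h : ∀ x : LaurentSeries Qbar,
      x ∈ genW (K := L) (K' := Qbar) (modularFunctionFieldFull M) →
      ∃ hx : x ∈ Fbar M, (⟨x, hx⟩ : Fbar M) ∈
        AddSubmonoid.closure (ChartSpanGen.genSet (K' := Qbar) (cL M L)) by
    obtain ⟨_, h2⟩ := h _ h1
    exact h2
  intro x hx
  induction hx using AddSubmonoid.closure_induction with
  | mem x hx =>
    obtain ⟨e, he, b, rfl⟩ := hx
    have hmem : coeffMap (algebraMap L Qbar) e * algebraMap Qbar (LaurentSeries Qbar) b ∈ Fbar M :=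
      mul_mem (cL M L ⟨e, he⟩).2 ((Fbar M).algebraMap_mem b)
    refine ⟨hmem, AddSubmonoid.subset_closure ⟨⟨e, he⟩, b, ?_⟩⟩
    exact Subtype.ext rfl
  | zero => exact ⟨zero_mem _, zero_mem _⟩
  | add x y _ _ hx hy =>
    obtain ⟨hx1, hx2⟩ := hx
    obtain ⟨hy1, hy2⟩ := hy
    refine ⟨add_mem hx1 hy1, ?_⟩
    have : (⟨x + y, add_mem hx1 hy1⟩ : Fbar M) = ⟨x, hx1⟩ + ⟨y, hy1⟩ := Subtype.ext rfl
    rw [this]
    exact add_mem hx2 hy2

/-- **(D-SPAN)** `C_0(ℚ̄) = ℚ̄ · cL (C_0(L))`. -/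
theorem chartSpan : ChartSpan M := by
  intro L t _ x hx
  haveI h0 : Algebra.IsAlgebraic ℚ Qbar := AlgebraicClosure.isAlgebraic ℚ
  haveI : Algebra.IsAlgebraic L Qbar := Algebra.IsAlgebraic.tower_top (K := ℚ) L
  obtain ⟨lam, hlam⟩ := exists_retraction (K := L) (K' := Qbar)
  let Lam : Fbar M →+ FK M L :=
    { toFun := fun y => ⟨coeffLin lam (y : LaurentSeries Qbar),
        coeffLin_mem (modularFunctionFieldFull M) lam y.2⟩
      map_zero' := Subtype.ext (map_zero _)
      map_add' := fun y y' => Subtype.ext (map_add _ _ _) }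
  have hLam : ∀ (e : FK M L) (b : Qbar),
      Lam (cL M L e * algebraMap Qbar (Fbar M) b) = e * algebraMap L (FK M L) (lam b) := by
    intro e b
    apply Subtype.ext
    show coeffLin lam (coeffMap (algebraMap L Qbar) (e : LaurentSeries L) *
      algebraMap Qbar (LaurentSeries Qbar) b) =
        (e : LaurentSeries L) * algebraMap L (LaurentSeries L) (lam b)
    exact coeffLin_img_mul_const lam _ b
  rw [mem_C0_iff] at hx
  exact ChartSpanGen.mem_span_of_isIntegral (cL M L) (galPairs M L) (cL_const M L)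
    (galPairs_fix M L) (galPairs_const M L) (galPairs_fixed M L) lam Lam (rep M L) hlam hLam t x hx

end Fermat.Agent.T1.Dict22.ChartSpan
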