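/-
Programme T1a (S19), brick G7 DICT (helper22, for helper67's `DivPt`): **values at rational places**.
The value at an `L`-rational place `w` of `ℚ̄·F_M` of a function of `L·F_M` regular at `w` lies in `L`.
-/
import Mathlib
import Fermat.Agent.T1.Dict59.Iface2
import Fermat.Agent.T1.Dict22.ChartSpan
import Fermat.Agent.RR.LHypGen
import Fermat.Agent.RED.TOP.FbarFacts20
import Fermat.Agent.X0.FFDict

set_option autoImplicit false
set_option linter.unusedSectionVars false
set_option linter.style.haveILetI false
set_option synthInstance.maxHeartbeats 400000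
set_option maxHeartbeats 1000000

noncomputable section

open HahnSeries AlgebraicCurve ModularCurve IntermediateField
open Fermat.Agent.RED.Interface4 Fermat.Agent.T1.Dict59
open Fermat.Agent.X0.FF

namespace Fermat.Agent.T1.Dict22.RatValue

/-- Functions of `L·F_M` are fixed by `Gal(ℚ̄/L)`. -/
theorem gal_smul_cL' (M : ℕ) (L : IntermediateField ℚ Qbar) (σ : GQ) (hσ : ∀ a ∈ L, σ a = a)
    (x : FK M L) :
    arithmeticGalois (modularFunctionFieldFull M) σ • cL M L x = cL M L x := by
  apply Subtype.ext
  rw [coe_arithmeticGalois_smul, coe_cL, coeffMap_coeffMap]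
  exact coeffMap_congr (RingHom.ext fun a => hσ _ a.2) _

/-- **The value of an `L`-function at an `L`-rational place lies in `L`.** -/
theorem exists_value_mem (M : ℕ) [NeZero M] (L : IntermediateField ℚ Qbar)
    (w : Place Qbar (Fbar M)) (hw : IsRatPlace L w) (y : FK M L)
    (hy : cL M L y ∈ w.toValuationSubring) :
    ∃ a : L, y = algebraMap L (FK M L) a ∨
      0 < w.ord (cL M L (y - algebraMap L (FK M L) a)) := by
  have H : Fermat.Agent.RR.LSpace.LHyp Qbar (Fbar M) :=
    Fermat.Agent.RR.LHypGen.lHyp_of_isGen (Fermat.Agent.RED.TOP.FbarFacts20.isGen_j M)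
  obtain ⟨c, hc⟩ := H.residue w (cL M L y) hy
  have hcL : c ∈ L := by
    apply ChartSpan.mem_of_fixed' L c
    intro σ hσ
    have hgw : arithmeticGalois (modularFunctionFieldFull M) σ • w = w := hw σ hσ
    have hgy := gal_smul_cL' M L σ hσ y
    have hgc : arithmeticGalois (modularFunctionFieldFull M) σ • algebraMap Qbar (Fbar M) c =
        algebraMap Qbar (Fbar M) (σ c) := by
      rw [SemilinearAut.smul_algebraMap, baseAut_arithmeticGalois]
      rfl
    rcases hc with hc | hc
    · have h1 : arithmeticGalois (modularFunctionFieldFull M) σ • cL M L y =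
          arithmeticGalois (modularFunctionFieldFull M) σ • algebraMap Qbar (Fbar M) c := by
        rw [← hc]
      rw [hgy, hgc, hc] at h1
      exact ((algebraMap Qbar (Fbar M)).injective h1).symm
    · have h1 : 0 < w.ord (cL M L y - algebraMap Qbar (Fbar M) (σ c)) := by
        have h2 := SemilinearAut.ord_smul (arithmeticGalois (modularFunctionFieldFull M) σ) w
          (cL M L y - algebraMap Qbar (Fbar M) c)
        rw [hgw, smul_sub, hgy, hgc] at h2
        rw [h2]
        exact hc
      by_contra hne
      have hd : algebraMap Qbar (Fbar M) (σ c - c) =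
          (cL M L y - algebraMap Qbar (Fbar M) c) -
            (cL M L y - algebraMap Qbar (Fbar M) (σ c)) := by
        rw [map_sub]; ring
      have hd0 : algebraMap Qbar (Fbar M) (σ c - c) ≠ 0 := by
        rw [Ne, map_eq_zero, sub_eq_zero]
        exact hne
      have h2 : w.ord (algebraMap Qbar (Fbar M) (σ c - c)) = 0 := ord_algebraMap w (σ c - c)
      have h3 := ord_sub_ge w (f := cL M L y - algebraMap Qbar (Fbar M) c)
        (g := cL M L y - algebraMap Qbar (Fbar M) (σ c)) (by rw [← hd]; exact hd0)
      rw [← hd, h2] at h3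
      have h4 := lt_min hc h1
      omega
  refine ⟨⟨c, hcL⟩, ?_⟩
  have hconst : cL M L (algebraMap L (FK M L) ⟨c, hcL⟩) = algebraMap Qbar (Fbar M) c :=
    ChartSpan.cL_const M L ⟨c, hcL⟩
  rcases hc with hc | hc
  · left
    apply cL_injective M L
    rw [hc, hconst]
  · right
    rw [map_sub, hconst]
    exact hc

end Fermat.Agent.T1.Dict22.RatValue
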