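/-
Programme T1a (S19), brick G7 DICT (helper22): **(D-VAL)** alias and **(D-PTGAL)** Galois transport of
values at rational places.

* `exists_const_sub_ord_pos` : the value of an `L`-function at an `L`-rational place lies in `L`
  (alias of `RatValue.exists_value_mem`, in helper59's naming);
* `value_galois` : if `a` is the value of `x` at `w`, then `σ a` is the value of `σ x` at `σ w`
  (`L` normal over `ℚ`);
* `isRatPlace_smul` : `σ w` is `L`-rational if `w` is (`L` normal over `ℚ`);
* `mem_smul_iff` : `cL (σ x) ∈ O_{σ w} ↔ cL x ∈ O_w`.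
-/
import Mathlib
import Fermat.Agent.T1.Dict59.Iface2
import Fermat.Agent.T1.Dict22.RatValue
import Fermat.Agent.T1.Dict67.Galois

set_option autoImplicit false
set_option linter.unusedSectionVars false
set_option linter.style.haveILetI false
set_option synthInstance.maxHeartbeats 400000
set_option maxHeartbeats 1000000

noncomputable section

open HahnSeries AlgebraicCurve ModularCurve IntermediateField
open Fermat.Agent.RED.Interface4 Fermat.Agent.T1.Dict59 Fermat.Agent.T1.Dict67

namespace Fermat.Agent.T1.Dict22.RatValue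

/-- **(D-VAL)** the value of an `L`-function at an `L`-rational place lies in `L`. -/
theorem exists_const_sub_ord_pos (M : ℕ) [NeZero M] (L : IntermediateField ℚ Qbar)
    (w : Place Qbar (Fbar M)) (hw : IsRatPlace L w) (x : FK M L)
    (hx : cL M L x ∈ w.toValuationSubring) :
    ∃ a : L, x = algebraMap L (FK M L) a ∨
      0 < w.ord (cL M L (x - algebraMap L (FK M L) a)) :=
  exists_value_mem M L w hw x hx

variable (M : ℕ) (L : IntermediateField ℚ Qbar) [Normal ℚ L]

/-- The arithmetic action on the constants of `L·F_M`. -/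
theorem arith_const (τ : L ≃ₐ[ℚ] L) (a : L) :
    arith M L τ (algebraMap L (FK M L) a) = algebraMap L (FK M L) (τ a) :=
  arithmeticRingAut_algebraMap (modularFunctionFieldFull M) τ a

/-- **(D-PTGAL)** Galois transport of values. -/
theorem value_galois (σ : GQ) (w : Place Qbar (Fbar M)) (x : FK M L) (a : L)
    (h : x = algebraMap L (FK M L) a ∨ 0 < w.ord (cL M L (x - algebraMap L (FK M L) a))) :
    arith M L (σ.restrictNormal L) x = algebraMap L (FK M L) (σ.restrictNormal L a) ∨
      0 < (gal M σ • w).ord (cL M L (arith M L (σ.restrictNormal L) x -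
        algebraMap L (FK M L) (σ.restrictNormal L a))) := by
  rcases h with h | h
  · left
    rw [h, arith_const]
  · right
    have h1 : arith M L (σ.restrictNormal L) x - algebraMap L (FK M L) (σ.restrictNormal L a) =
        arith M L (σ.restrictNormal L) (x - algebraMap L (FK M L) a) := by
      rw [map_sub, arith_const]
    rw [h1, cL_arith, SemilinearAut.ord_smul]
    exact h

/-- Membership in the valuation ring is transported by the Galois action. -/
theorem mem_smul_iff (σ : GQ) (w : Place Qbar (Fbar M)) (x : FK M L) :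
    cL M L (arith M L (σ.restrictNormal L) x) ∈ (gal M σ • w).toValuationSubring ↔
      cL M L x ∈ w.toValuationSubring := by
  rw [cL_arith, Fermat.Agent.X0.FF.ffp_mem_iff_ord_nonneg, Fermat.Agent.X0.FF.ffp_mem_iff_ord_nonneg,
    SemilinearAut.ord_smul]

/-- `σ` maps `L` into `L` (`L` normal over `ℚ`). -/
theorem map_mem_of_normal (σ : GQ) {a : Qbar} (ha : a ∈ L) : σ a ∈ L := by
  have h := AlgEquiv.restrictNormal_commutes σ L ⟨a, ha⟩
  have h2 : σ a = ((σ.restrictNormal L ⟨a, ha⟩ : L) : Qbar) := h.symm
  rw [h2]
  exact (σ.restrictNormal L ⟨a, ha⟩).2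

/-- The Galois image of an `L`-rational place is `L`-rational (`L` normal over `ℚ`). -/
theorem isRatPlace_smul (σ : GQ) (w : Place Qbar (Fbar M)) (hw : IsRatPlace L w) :
    IsRatPlace L (gal M σ • w) := by
  intro τ hτ
  have hfix : ∀ a ∈ L, (σ⁻¹ * τ * σ) a = a := by
    intro a ha
    have h1 : τ (σ a) = σ a := hτ _ (map_mem_of_normal L σ ha)
    show σ⁻¹ (τ (σ a)) = a
    rw [h1]
    exact σ.symm_apply_apply a
  have h2 := hw (σ⁻¹ * τ * σ) hfix
  have h3 : τ * σ = σ * (σ⁻¹ * τ * σ) := by group
  show arithmeticGalois (modularFunctionFieldFull M) τ •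
    (arithmeticGalois (modularFunctionFieldFull M) σ • w) =
      arithmeticGalois (modularFunctionFieldFull M) σ • w
  rw [← mul_smul, ← map_mul, h3, map_mul, mul_smul, h2]

end Fermat.Agent.T1.Dict22.RatValue
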