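/-
Programme T1a (S19), brick G7 DICT (helper22): **(P4) Galois transport of points**, generic core.

A "point of `w`" on a ring `B` mapped to `L·F_M` by `f` is a map `q : B → L` with `f b ≡ q b` at `w` for all
`b`.  If `s : B → B` is surjective with `f (s b) = σ (f b)` and `q' (s b) = σ (q b)`, then `q'` is a point
of `σ w`.
-/
import Mathlib
import Fermat.Agent.T1.Dict59.Iface2
import Fermat.Agent.T1.Dict22.RatValueGal

set_option autoImplicit false
set_option linter.unusedSectionVars false
set_option linter.style.haveILetI false
set_option synthInstance.maxHeartbeats 400000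
set_option maxHeartbeats 1000000

noncomputable section

open HahnSeries AlgebraicCurve ModularCurve IntermediateField
open Fermat.Agent.RED.Interface4 Fermat.Agent.T1.Dict59 Fermat.Agent.T1.Dict67

namespace Fermat.Agent.T1.Dict22.PtGal

variable (M : ℕ) (L : IntermediateField ℚ Qbar) [Normal ℚ L]

/-- **(P4), generic core.** -/
theorem isPt_galois {B : Type*} (σ : GQ) (w : Place Qbar (Fbar M)) (f : B → FK M L) (s : B → B)
    (hs : Function.Surjective s)
    (hcompat : ∀ b, f (s b) = arith M L (σ.restrictNormal L) (f b))
    (q q' : B → L) (hq : ∀ b, q' (s b) = σ.restrictNormal L (q b))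
    (h : ∀ b, f b = algebraMap L (FK M L) (q b) ∨
      0 < w.ord (cL M L (f b - algebraMap L (FK M L) (q b)))) :
    ∀ b, f b = algebraMap L (FK M L) (q' b) ∨
      0 < (gal M σ • w).ord (cL M L (f b - algebraMap L (FK M L) (q' b))) := by
  intro b'
  obtain ⟨b, rfl⟩ := hs b'
  rw [hcompat, hq]
  exact RatValue.value_galois M L σ w (f b) (q b) (h b)

/-- A Galois-fixed coordinate is regular at `σ w` iff it is regular at `w`. -/
theorem mem_smul_iff_of_fixed (σ : GQ) (w : Place Qbar (Fbar M)) (t : FK M L)
    (ht : arith M L (σ.restrictNormal L) t = t) :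
    cL M L t ∈ (gal M σ • w).toValuationSubring ↔ cL M L t ∈ w.toValuationSubring := by
  have h := RatValue.mem_smul_iff M L σ w t
  rwa [ht] at h

end Fermat.Agent.T1.Dict22.PtGal
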