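/-
Programme T1a (S19), brick G7 DICT, slice D-EXH (helper22), file 2:
**functions with exact order at one place and bounded poles elsewhere** (from Riemann–Roch).

`F / K` a function field with generator `x` (`IsGen K x`), `K` algebraically closed of characteristic
zero.  For divisors `D`, `E ≥ 0` of positive degree and a place `w₀` outside the support of `E` there
is `f ≠ 0` with `ord_w f ≥ -D(w) - n E(w)` for all `w` and `ord_{w₀} f = -D(w₀)`.
-/
import Mathlib
import Fermat.Agent.RR.RRMain
import Fermat.Agent.RR.LHypGen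

set_option autoImplicit false
set_option linter.unusedSectionVars false
set_option linter.style.haveILetI false

open AlgebraicCurve

namespace Fermat.Agent.T1.Dict22.Approx

open Fermat.Agent.X0.FF Fermat.Agent.RR.LSpace

variable {K F : Type*} [Field K] [Field F] [Algebra K F] [IsAlgClosed K] [CharZero K] {x : F}
  [HasCanonicalDivisor (K := K) (F := F)]

theorem exists_exact_order (hx : IsGen K x) (D E : Divisor K F) (hEdeg : 0 < Divisor.degree E)
    (w₀ : Place K F) (hw₀ : E w₀ = 0) :
    ∃ (f : F) (n : ℕ), f ≠ 0 ∧ (∀ w : Place K F, -(D w) - (n : ℤ) * E w ≤ w.ord f) ∧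
      w₀.ord f = -(D w₀) := by
  classical
  have H : LHyp K F := Fermat.Agent.RR.LHypGen.lHyp_of_isGen hx
  set g : ℤ := (genus K F : ℤ) with hg
  set n : ℕ := (2 * g + 2 - Divisor.degree D).toNat with hn
  have hn' : 2 * g + 2 - Divisor.degree D ≤ (n : ℤ) := Int.self_le_toNat _
  set A : Divisor K F := D + n • E with hA
  set B : Divisor K F := A - Finsupp.single w₀ 1 with hB
  have hAdeg : Divisor.degree A = Divisor.degree D + n * Divisor.degree E := by
    rw [hA, map_add, map_nsmul, nsmul_eq_mul]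
  have hBdeg : Divisor.degree B = Divisor.degree A - 1 := by
    rw [hB, map_sub, Divisor.degree_single, H.deg_eq_one w₀]
    simp
  have hnE : (n : ℤ) ≤ n * Divisor.degree E := by
    have h1 : (0 : ℤ) ≤ n := Int.natCast_nonneg n
    nlinarith
  have hA2 : 2 * g - 2 < Divisor.degree A := by rw [hAdeg]; omega
  have hB2 : 2 * g - 2 < Divisor.degree B := by rw [hBdeg, hAdeg]; omega
  have hlA := Fermat.Agent.RR.RRMain.finrank_L_of_degree_gt hx A hA2
  have hlB := Fermat.Agent.RR.RRMain.finrank_L_of_degree_gt hx B hB2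
  have hBA : B ≤ A := by
    intro v
    rw [hB, Finsupp.sub_apply]
    have : (0 : ℤ) ≤ (Finsupp.single w₀ (1 : ℤ)) v := by
      rw [Finsupp.single_apply]; split_ifs <;> norm_num
    omega
  have hle : riemannRochSpace B ≤ riemannRochSpace A := L_mono hBA
  haveI := Fermat.Agent.RR.RRMain.finiteDimensional_L hx A
  haveI := Fermat.Agent.RR.RRMain.finiteDimensional_L hx B
  have hnot : ¬ riemannRochSpace A ≤ riemannRochSpace B := by
    intro h
    have := Submodule.finrank_mono h
    have h2 : (Module.finrank K (riemannRochSpace A) : ℤ) ≤ Module.finrank K (riemannRochSpace B) := by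
      exact_mod_cast this
    rw [hlA, hlB, hBdeg] at h2
    omega
  obtain ⟨f, hfA, hfB⟩ := SetLike.not_le_iff_exists.1 hnot
  have hf0 : f ≠ 0 := by
    rintro rfl
    exact hfB (Submodule.zero_mem _)
  rw [mem_L_iff hf0] at hfA hfB
  have hAv : ∀ v : Place K F, A v = D v + (n : ℤ) * E v := by
    intro v
    rw [hA, Finsupp.add_apply, Finsupp.smul_apply, nsmul_eq_mul]
  refine ⟨f, n, hf0, fun w => ?_, ?_⟩
  · have := hfA w
    rw [hAv] at this
    omega
  · push Not at hfB
    obtain ⟨v, hv⟩ := hfB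
    have hvw : v = w₀ := by
      by_contra hne
      have h1 : B v = A v := by
        rw [hB, Finsupp.sub_apply, Finsupp.single_apply, if_neg (fun h => hne h.symm), sub_zero]
      rw [h1] at hv
      exact absurd (hfA v) (not_le.2 hv)
    subst hvw
    have h1 : B v = A v - 1 := by
      rw [hB, Finsupp.sub_apply, Finsupp.single_apply, if_pos rfl]
    have h2 := hfA v
    rw [h1] at hv
    rw [hAv, hw₀] at h2 hv
    omega

/-- Finitely many places of the chart can be served by a finite family with a common pole bound. -/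
theorem exists_family_aux (hx : IsGen K x) (D E : Divisor K F) (hE0 : 0 ≤ E)
    (hEdeg : 0 < Divisor.degree E) (B : Finset (Place K F)) (hB : ∀ w ∈ B, E w = 0) :
    ∃ (S : Finset F) (n : ℕ), (∀ f ∈ S, f ≠ 0) ∧
      (∀ f ∈ S, ∀ w : Place K F, -(D w) - (n : ℤ) * E w ≤ w.ord f) ∧
      (∀ w ∈ B, ∃ f ∈ S, w.ord f = -(D w)) := by
  classical
  induction B using Finset.induction_on with
  | empty =>
    exact ⟨∅, 0, fun f hf => absurd hf (Finset.notMem_empty f),
      fun f hf => absurd hf (Finset.notMem_empty f), fun w hw => absurd hw (Finset.notMem_empty w)⟩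
  | insert w₀ B _ ih =>
    obtain ⟨S, n, hS0, hSb, hSe⟩ := ih (fun w hw => hB w (Finset.mem_insert_of_mem hw))
    obtain ⟨f, m, hf0, hfb, hfe⟩ :=
      exists_exact_order hx D E hEdeg w₀ (hB w₀ (Finset.mem_insert_self w₀ B))
    have hEw : ∀ w : Place K F, 0 ≤ E w := fun w => hE0 w
    refine ⟨insert f S, max n m, ?_, ?_, ?_⟩
    · intro g hg
      rcases Finset.mem_insert.1 hg with rfl | hg
      · exact hf0
      · exact hS0 g hg
    · intro g hg w
      have h1 : (n : ℤ) ≤ ((max n m : ℕ) : ℤ) := by exact_mod_cast le_max_left n m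
      have h2 : (m : ℤ) ≤ ((max n m : ℕ) : ℤ) := by exact_mod_cast le_max_right n m
      have h3 := hEw w
      rcases Finset.mem_insert.1 hg with rfl | hg
      · have := hfb w
        nlinarith
      · have := hSb g hg w
        nlinarith
    · intro w hw
      rcases Finset.mem_insert.1 hw with rfl | hw
      · exact ⟨f, Finset.mem_insert_self f S, hfe⟩
      · obtain ⟨g, hg, hge⟩ := hSe w hw
        exact ⟨g, Finset.mem_insert_of_mem hg, hge⟩

/-- **The chart family.**  For a nonconstant `tb` there are a finite family `S` of nonzero functions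
and `n` with `ord_w f ≥ -D(w) - n · max(0, -ord_w tb)` everywhere, and such that every place at which
`tb` is regular has a member of exact order `-D(w)`. -/
theorem exists_family (hx : IsGen K x) (D : Divisor K F) {tb : F} (htb0 : tb ≠ 0)
    (htb : ¬ ∃ c : K, tb = algebraMap K F c) :
    ∃ (S : Finset F) (n : ℕ), S.Nonempty ∧ (∀ f ∈ S, f ≠ 0) ∧
      (∀ f ∈ S, ∀ w : Place K F, -(D w) - (n : ℤ) * max 0 (-(w.ord tb)) ≤ w.ord f) ∧
      (∀ w : Place K F, 0 ≤ w.ord tb → ∃ f ∈ S, w.ord f = -(D w)) := by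
  classical
  have H : LHyp K F := Fermat.Agent.RR.LHypGen.lHyp_of_isGen hx
  set E : Divisor K F := Fermat.Agent.RR.Riemann.poleDiv H htb0 with hEdef
  have hE : ∀ w : Place K F, E w = max 0 (-(w.ord tb)) :=
    fun w => Fermat.Agent.RR.Riemann.poleDiv_apply H htb0 w
  have hEnn : 0 ≤ E := Fermat.Agent.RR.Riemann.poleDiv_nonneg H htb0
  have hEdeg : 0 < Divisor.degree E := Fermat.Agent.RR.Riemann.degree_poleDiv_pos H htb0 htb
  have hE0 : ∀ w : Place K F, 0 ≤ w.ord tb → E w = 0 := by
    intro w hw
    rw [hE]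
    exact max_eq_left (by omega)
  -- a place where `tb` is regular
  have hex : ∃ w₁ : Place K F, 0 ≤ w₁.ord tb := by
    by_contra hcon
    push Not at hcon
    have h1 : ∀ v : Place K F, 0 ≤ v.ord tb⁻¹ := by
      intro v
      rw [v.ord_inv]
      have := hcon v
      omega
    obtain ⟨c, hc⟩ := eq_algebraMap_of_forall_ord_nonneg H h1
    apply htb
    refine ⟨c⁻¹, ?_⟩
    rw [map_inv₀, ← hc, inv_inv]
  obtain ⟨w₁, hw₁⟩ := hex
  obtain ⟨f₁, n₁, hf₁0, hf₁b, hf₁e⟩ := exists_exact_order hx D E hEdeg w₁ (hE0 w₁ hw₁)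
  -- the finitely many places where `f₁` is not exact
  have hBfin : {w : Place K F | 0 ≤ w.ord tb ∧ w.ord f₁ ≠ -(D w)}.Finite := by
    refine Set.Finite.subset ((divOf H hf₁0).support ∪ D.support).finite_toSet ?_
    intro w hw
    rw [Finset.mem_coe, Finset.mem_union, Finsupp.mem_support_iff, Finsupp.mem_support_iff,
      divOf_apply]
    by_contra hcon
    push Not at hcon
    apply hw.2
    rw [hcon.1, hcon.2, neg_zero]
  obtain ⟨S, n, hS0, hSb, hSe⟩ := exists_family_aux hx D E hEnn hEdeg hBfin.toFinset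
    (fun w hw => hE0 w ((Set.Finite.mem_toFinset hBfin).1 hw).1)
  have hEw : ∀ w : Place K F, 0 ≤ E w := fun w => hEnn w
  refine ⟨insert f₁ S, max n n₁, Finset.insert_nonempty f₁ S, ?_, ?_, ?_⟩
  · intro g hg
    rcases Finset.mem_insert.1 hg with rfl | hg
    · exact hf₁0
    · exact hS0 g hg
  · intro g hg w
    have h1 : (n : ℤ) ≤ ((max n n₁ : ℕ) : ℤ) := by exact_mod_cast le_max_left n n₁
    have h2 : (n₁ : ℤ) ≤ ((max n n₁ : ℕ) : ℤ) := by exact_mod_cast le_max_right n n₁
    have h3 := hEw w
    rw [← hE w]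
    rcases Finset.mem_insert.1 hg with rfl | hg
    · have := hf₁b w
      nlinarith
    · have := hSb g hg w
      nlinarith
  · intro w hw
    by_cases hex : w.ord f₁ = -(D w)
    · exact ⟨f₁, Finset.mem_insert_self f₁ S, hex⟩
    · obtain ⟨g, hg, hge⟩ := hSe w ((Set.Finite.mem_toFinset hBfin).2 ⟨hw, hex⟩)
      exact ⟨g, Finset.mem_insert_of_mem hg, hge⟩

end Fermat.Agent.T1.Dict22.Approx
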