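/-
Programme T1a (S19), brick G7 DICT, slice D-EXH (helper22), file 3:
**common descent of finitely many elements of `ℚ̄·F_M` to one number field, Galois over `ℚ`.**
-/
import Mathlib
import Fermat.Agent.T1.Dict59.Iface

set_option autoImplicit false
set_option linter.unusedSectionVars false
set_option linter.style.haveILetI false

noncomputable section

open HahnSeries AlgebraicCurve ModularCurve IntermediateField
open Fermat.Agent.RED.Interface4 Fermat.Agent.RED.DESC Fermat.Agent.T1.Dict59

namespace Fermat.Agent.T1.Dict22.Descent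

theorem isAlgebraic_Qbar : Algebra.IsAlgebraic ℚ Qbar :=
  AlgebraicClosure.isAlgebraic ℚ

/-- A finite family of elements of `ℚ̄·F_M` descends to a common number field `K ⊇ K₀`. -/
theorem exists_common_descent_aux (M : ℕ) (K₀ : IntermediateField ℚ Qbar) [FiniteDimensional ℚ K₀]
    (T : Finset (Fbar M)) :
    ∃ K : IntermediateField ℚ Qbar, K₀ ≤ K ∧ FiniteDimensional ℚ K ∧
      ∀ x ∈ T, ∃ x' : LaurentSeries K, x' ∈ FK M K ∧
        coeffMap (algebraMap K Qbar) x' = (x : LaurentSeries Qbar) := by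
  classical
  haveI h0 : Algebra.IsAlgebraic ℚ Qbar := isAlgebraic_Qbar
  induction T using Finset.induction_on with
  | empty => exact ⟨K₀, le_rfl, inferInstance, fun x hx => absurd hx (Finset.notMem_empty x)⟩
  | insert a T _ ih =>
    obtain ⟨K, hK₀, hfin, hK⟩ := ih
    haveI := hfin
    obtain ⟨K', hKK', hfin', a', ha', haa'⟩ :=
      CoeffDescent1.exists_finite_descent (F₀ := modularFunctionFieldFull M) K a.2
    refine ⟨K', hK₀.trans hKK', hfin', ?_⟩
    intro x hx
    rcases Finset.mem_insert.mp hx with rfl | hx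
    · exact ⟨a', ha', haa'⟩
    · obtain ⟨x', hx', hxx'⟩ := hK x hx
      obtain ⟨x'', hx'', h''⟩ := CoeffDescent1.exists_lift_of_le hKK' hx'
      exact ⟨x'', hx'', h''.trans hxx'⟩

/-- A finite family of elements of `ℚ̄·F_M` descends to a common number field `L ⊇ L₀`, normal over
`ℚ`. -/
theorem exists_common_descent (M : ℕ) (L₀ : IntermediateField ℚ Qbar) [FiniteDimensional ℚ L₀]
    (T : Finset (Fbar M)) :
    ∃ (L : IntermediateField ℚ Qbar) (_ : L₀ ≤ L), FiniteDimensional ℚ L ∧ Normal ℚ L ∧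
      ∀ x ∈ T, ∃ x' : FK M L, cL M L x' = x := by
  classical
  haveI h0 : Algebra.IsAlgebraic ℚ Qbar := isAlgebraic_Qbar
  obtain ⟨K, hK₀, hfin, hK⟩ := exists_common_descent_aux M L₀ T
  haveI := hfin
  haveI : IsAlgClosure ℚ Qbar := ⟨inferInstance, h0⟩
  haveI : Normal ℚ Qbar := IsAlgClosure.normal ℚ Qbar
  refine ⟨IntermediateField.normalClosure ℚ K Qbar, hK₀.trans K.le_normalClosure,
    normalClosure.is_finiteDimensional ℚ K Qbar, normalClosure.normal ℚ K Qbar, ?_⟩
  intro x hx
  obtain ⟨x', hx', hxx'⟩ := hK x hx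
  obtain ⟨x'', hx'', h''⟩ := CoeffDescent1.exists_lift_of_le K.le_normalClosure hx'
  exact ⟨⟨x'', hx''⟩, Subtype.ext (h''.trans hxx')⟩

end Fermat.Agent.T1.Dict22.Descent
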