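/-
Programme T1a (S19), brick G7 DICT, slice D-EXH (helper22), file 4:
**a line pair with prescribed divisor from two finite families of functions** (generic form).

`φ : F₁ → F₂` a homomorphism of fields (`F₁ = L·F_M`, `F₂ = ℚ̄·F_M`, `φ = cL`), `t ∈ F₁ˣ`, `D` an integer
valued function on the places of `F₂ / K₂`.  Given finite families `S0`, `S1 ⊂ F₁ˣ` with
* `ord_w (φ f) ≥ -D(w) - n₀ · max(0, -ord_w (φ t))` for `f ∈ S0` and all `w`,
* every `w` with `ord_w (φ t) ≥ 0` has an `f ∈ S0` of exact order `-D(w)`,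
* the same for `S1` with `t⁻¹`,
the pair `I0 = C0·(S0 ∪ t^k S1)`, `I1 = C1·(S1 ∪ t^{-k} S0)` (`k ≥ n₀, n₁`) is a line pair whose
`w`-adic orders are `-D(w)` at every place.
-/
import Mathlib
import Fermat.Agent.T1.Dict59.Iface
import Fermat.Agent.T1.Dict22.Scale
import Fermat.Prelude.Def_AlgebraicCurve_Repartitions

set_option autoImplicit false
set_option linter.unusedSectionVars false

noncomputable section

open AlgebraicCurve
open Fermat.Agent.T1.Dict59

namespace Fermat.Agent.T1.Dict22.ExhGeneric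

/-! ### Generators and the overlap condition -/

section Overlap

variable {K F : Type*} [Field K] [Field F] [Algebra K F]

/-- The generators `S ∪ t^k S'` of the chart module. -/
def gens (t : F) (k : ℕ) (S S' : Finset F) : Set F :=
  (↑S : Set F) ∪ (fun g => t ^ k * g) '' (↑S' : Set F)

theorem gens_finite (t : F) (k : ℕ) (S S' : Finset F) : (gens t k S S').Finite :=
  S.finite_toSet.union (S'.finite_toSet.image _)

theorem self_mem_C0 (t : F) : t ∈ C0 (K := K) t := by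
  rw [mem_C0_iff]
  have : t = algebraMap (Algebra.adjoin K {t}) F ⟨t, Algebra.subset_adjoin (Set.mem_singleton t)⟩ :=
    rfl
  rw [this]
  exact isIntegral_algebraMap

theorem pow_mem_C0 (t : F) (n : ℕ) : t ^ n ∈ C0 (K := K) t :=
  pow_mem (self_mem_C0 t) n

theorem smul_def_C0 (t : F) (c : C0 (K := K) t) (x : F) : c • x = (c : F) * x := rfl

/-- The overlap condition, in the monotone form. -/
theorem overlap {t s : F} (hts : t * s = 1) (k : ℕ) (S S' : Finset F) :
    ∀ x ∈ Submodule.span (C0 (K := K) t) (gens t k S S'),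
      ∃ m : ℕ, ∀ j : ℕ, m ≤ j →
        s ^ j * x ∈ Submodule.span (C0 (K := K) s) (gens s k S' S) := by
  have ht : t ≠ 0 := left_ne_zero_of_mul_eq_one hts
  have hs : s = t⁻¹ := eq_inv_of_mul_eq_one_right hts
  have hst : ∀ n : ℕ, s ^ n * t ^ n = 1 := fun n => by
    rw [← mul_pow, mul_comm, hts, one_pow]
  intro x hx
  induction hx using Submodule.span_induction with
  | mem x hx =>
    rcases hx with hx | ⟨g, hg, rfl⟩
    · refine ⟨k, fun j hj => ?_⟩
      have h1 : s ^ j * x =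
          (⟨s ^ (j - k), pow_mem_C0 s _⟩ : C0 (K := K) s) • (s ^ k * x) := by
        rw [smul_def_C0]
        show s ^ j * x = s ^ (j - k) * (s ^ k * x)
        rw [← mul_assoc, ← pow_add, Nat.sub_add_cancel hj]
      rw [h1]
      exact Submodule.smul_mem _ _ (Submodule.subset_span (Or.inr ⟨x, hx, rfl⟩))
    · refine ⟨k, fun j hj => ?_⟩
      have h1 : s ^ j * (t ^ k * g) =
          (⟨s ^ (j - k), pow_mem_C0 s _⟩ : C0 (K := K) s) • g := by
        rw [smul_def_C0]
        show s ^ j * (t ^ k * g) = s ^ (j - k) * g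
        have h2 : s ^ j = s ^ (j - k) * s ^ k := by rw [← pow_add, Nat.sub_add_cancel hj]
        rw [h2, mul_assoc, ← mul_assoc (s ^ k), hst, one_mul]
      rw [h1]
      exact Submodule.smul_mem _ _ (Submodule.subset_span (Or.inl hg))
  | zero => exact ⟨0, fun j _ => by rw [mul_zero]; exact zero_mem _⟩
  | add x y _ _ hx hy =>
    obtain ⟨m1, h1⟩ := hx
    obtain ⟨m2, h2⟩ := hy
    refine ⟨max m1 m2, fun j hj => ?_⟩
    rw [mul_add]
    exact add_mem (h1 j (le_trans (le_max_left _ _) hj)) (h2 j (le_trans (le_max_right _ _) hj))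
  | smul c x _ hx =>
    obtain ⟨m1, h1⟩ := hx
    have hc : IsIntegral (Algebra.adjoin K {t}) (c : F) := c.2
    obtain ⟨n, hn⟩ := Scale.exists_isIntegral_inv_pow_mul (K := K) ht hc
    refine ⟨n + m1, fun j hj => ?_⟩
    have hmem : s ^ (j - m1) * (c : F) ∈ C0 (K := K) s := by
      rw [mem_C0_iff, hs]
      exact hn (j - m1) (by omega)
    have h2 : s ^ j * (c • x) =
        (⟨s ^ (j - m1) * (c : F), hmem⟩ : C0 (K := K) s) • (s ^ m1 * x) := by
      rw [smul_def_C0, smul_def_C0]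
      show s ^ j * ((c : F) * x) = s ^ (j - m1) * (c : F) * (s ^ m1 * x)
      have h3 : s ^ j = s ^ (j - m1) * s ^ m1 := by
        rw [← pow_add, Nat.sub_add_cancel (by omega)]
      rw [h3]
      ring
    rw [h2]
    exact Submodule.smul_mem _ _ (h1 m1 le_rfl)

/-- The line pair spanned by two finite families. -/
def mkPair (t : F) (ht : t ≠ 0) (k : ℕ) (S0 S1 : Finset F) (h0 : ∃ f ∈ S0, f ≠ 0)
    (h1 : ∃ g ∈ S1, g ≠ 0) : LinePair K t where
  I0 := Submodule.span (C0 (K := K) t) (gens t k S0 S1)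
  I1 := Submodule.span (C1 (K := K) t) (gens t⁻¹ k S1 S0)
  fg0 := Submodule.fg_span (gens_finite t k S0 S1)
  fg1 := Submodule.fg_span (gens_finite t⁻¹ k S1 S0)
  ne0 := by
    obtain ⟨f, hf, hf0⟩ := h0
    exact (Submodule.ne_bot_iff _).2 ⟨f, Submodule.subset_span (Or.inl hf), hf0⟩
  ne1 := by
    obtain ⟨g, hg, hg0⟩ := h1
    exact (Submodule.ne_bot_iff _).2 ⟨g, Submodule.subset_span (Or.inl hg), hg0⟩
  ov01 := fun x hx => by
    obtain ⟨m, hm⟩ := overlap (K := K) (mul_inv_cancel₀ ht) k S0 S1 x hx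
    exact ⟨m, hm m le_rfl⟩
  ov10 := fun x hx => by
    obtain ⟨m, hm⟩ := overlap (K := K) (inv_mul_cancel₀ ht) k S1 S0 x hx
    exact ⟨m, hm m le_rfl⟩

theorem mkPair_I0 (t : F) (ht : t ≠ 0) (k : ℕ) (S0 S1 : Finset F) (h0 : ∃ f ∈ S0, f ≠ 0)
    (h1 : ∃ g ∈ S1, g ≠ 0) :
    (mkPair (K := K) t ht k S0 S1 h0 h1).I0 =
      Submodule.span (C0 (K := K) t) (gens t k S0 S1) := rfl

theorem mkPair_I1 (t : F) (ht : t ≠ 0) (k : ℕ) (S0 S1 : Finset F) (h0 : ∃ f ∈ S0, f ≠ 0)
    (h1 : ∃ g ∈ S1, g ≠ 0) :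
    (mkPair (K := K) t ht k S0 S1 h0 h1).I1 =
      Submodule.span (C0 (K := K) t⁻¹) (gens t⁻¹ k S1 S0) := rfl

end Overlap

/-! ### The order of a chart module at a place -/

section Bound

variable {K₁ F₁ K₂ F₂ : Type*} [Field K₁] [Field F₁] [Algebra K₁ F₁]
  [Field K₂] [Field F₂] [Algebra K₂ F₂] (φ : F₁ →+* F₂)

/-- Elements of the chart `C0 s` map into the valuation ring of every place at which `φ s` is
regular. -/
theorem map_mem_of_mem_C0 (w : Place K₂ F₂)
    (hφK : ∀ a : K₁, φ (algebraMap K₁ F₁ a) ∈ w.toValuationSubring) {s : F₁}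
    (hs : φ s ∈ w.toValuationSubring) {c : F₁} (hc : c ∈ C0 (K := K₁) s) :
    φ c ∈ w.toValuationSubring := by
  rw [mem_C0_iff] at hc
  have hA : ∀ a : Algebra.adjoin K₁ {s}, φ (a : F₁) ∈ w.toValuationSubring := by
    rintro ⟨a, ha⟩
    show φ a ∈ w.toValuationSubring
    induction ha using Algebra.adjoin_induction with
    | mem x hx =>
      rw [Set.mem_singleton_iff] at hx
      rw [hx]; exact hs
    | algebraMap r => exact hφK r
    | add x y _ _ hx hy => rw [map_add]; exact add_mem hx hy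
    | mul x y _ _ hx hy => rw [map_mul]; exact mul_mem hx hy
  let ψ : Algebra.adjoin K₁ {s} →+* w.toValuationSubring :=
    (φ.comp (algebraMap (Algebra.adjoin K₁ {s}) F₁)).codRestrict w.toValuationSubring hA
  have h1 : IsIntegral w.toValuationSubring (φ c) :=
    IsIntegral.map_of_comp_eq ψ φ (by ext a; rfl) hc
  obtain ⟨y, hy⟩ := (IsIntegrallyClosed.isIntegral_iff (R := w.toValuationSubring) (K := F₂)).mp h1
  rw [← hy]
  exact y.2

/-- The valuation of an element of the span is bounded by the bound on the generators. -/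
theorem adicValuation_le_of_mem_span (w : Place K₂ F₂)
    (hφK : ∀ a : K₁, φ (algebraMap K₁ F₁ a) ∈ w.toValuationSubring) {s : F₁}
    (hs : φ s ∈ w.toValuationSubring) (d : WithZero (Multiplicative ℤ)) {G : Set F₁}
    (hG : ∀ g ∈ G, w.adicValuation (φ g) ≤ d) :
    ∀ x ∈ Submodule.span (C0 (K := K₁) s) G, w.adicValuation (φ x) ≤ d := by
  intro x hx
  induction hx using Submodule.span_induction with
  | mem x hx => exact hG x hx
  | zero => rw [map_zero, map_zero]; exact zero_le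
  | add x y _ _ hx hy =>
    rw [map_add]
    exact (w.adicValuation.map_add _ _).trans (max_le hx hy)
  | smul c x _ hx =>
    rw [smul_def_C0, map_mul, map_mul]
    have h1 : w.adicValuation (φ (c : F₁)) ≤ 1 :=
      w.adicValuation_le_one_of_mem (map_mem_of_mem_C0 φ w hφK hs c.2)
    calc w.adicValuation (φ (c : F₁)) * w.adicValuation (φ x) ≤ 1 * d := mul_le_mul' h1 hx
      _ = d := one_mul d

/-- An integer inequality. -/
theorem int_bound {k n : ℕ} (hkn : n ≤ k) {a d o : ℤ} (ha : 0 ≤ a)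
    (h : -d - (n : ℤ) * max 0 a ≤ o) : -d ≤ (k : ℤ) * a + o := by
  rw [max_eq_right ha] at h
  have h1 : (n : ℤ) ≤ (k : ℤ) := by exact_mod_cast hkn
  have h2 : (n : ℤ) * a ≤ (k : ℤ) * a := mul_le_mul_of_nonneg_right h1 ha
  linarith

/-- **The order of the chart module at a place of the chart.** -/
theorem isLeast_chart (w : Place K₂ F₂)
    (hφK : ∀ a : K₁, φ (algebraMap K₁ F₁ a) ∈ w.toValuationSubring) {s : F₁} (hs0 : s ≠ 0)
    (hs : φ s ∈ w.toValuationSubring) (d : ℤ) {k n : ℕ} (hkn : n ≤ k) (S S' : Finset F₁)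
    (hS : ∀ f ∈ S, f ≠ 0) (hS' : ∀ g ∈ S', g ≠ 0)
    (Ha : ∀ f ∈ S, -d ≤ w.ord (φ f))
    (Ha' : ∀ g ∈ S', -d - (n : ℤ) * max 0 (w.ord (φ s)) ≤ w.ord (φ g))
    (Hb : ∃ f ∈ S, w.ord (φ f) = -d) :
    IsLeast {m : ℤ | ∃ f ∈ Submodule.span (C0 (K := K₁) s) (gens s k S S'), f ≠ 0 ∧
      w.ord (φ f) = m} (-d) := by
  have hinj : Function.Injective φ := φ.injective
  have hne : ∀ {f : F₁}, f ≠ 0 → φ f ≠ 0 := fun hf => (map_ne_zero_iff φ hinj).2 hf
  have hsord : 0 ≤ w.ord (φ s) := by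
    rcases (w.adicValuation_le_one_iff).1 (w.adicValuation_le_one_of_mem hs) with h | h
    · exact absurd h (hne hs0)
    · exact h
  constructor
  · obtain ⟨f, hf, hfd⟩ := Hb
    exact ⟨f, Submodule.subset_span (Or.inl hf), hS f hf, hfd⟩
  · rintro m ⟨f, hf, hf0, rfl⟩
    have hG : ∀ g ∈ gens s k S S', w.adicValuation (φ g) ≤ WithZero.exp d := by
      intro g hg
      rw [w.adicValuation_le_exp_iff]
      right
      rcases hg with hg | ⟨g', hg', rfl⟩
      · exact Ha g hg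
      · have hg0 : φ g' ≠ 0 := hne (hS' g' hg')
        have hsk : φ s ^ k ≠ 0 := pow_ne_zero _ (hne hs0)
        rw [map_mul, map_pow, w.ord_mul hsk hg0]
        have hpow : w.ord (φ s ^ k) = (k : ℤ) * w.ord (φ s) := by
          have := w.ord_zpow (φ s) (k : ℤ)
          rwa [zpow_natCast] at this
        rw [hpow]
        exact int_bound hkn hsord (Ha' g' hg')
    have h1 := adicValuation_le_of_mem_span φ w hφK hs (WithZero.exp d) hG f hf
    rcases (w.adicValuation_le_exp_iff).1 h1 with h | h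
    · exact absurd h (hne hf0)
    · exact h

/-- **The line pair with prescribed orders.** -/
theorem exists_linePair
    (hφK : ∀ (a : K₁) (w : Place K₂ F₂), φ (algebraMap K₁ F₁ a) ∈ w.toValuationSubring)
    (t : F₁) (ht : t ≠ 0) (D : Place K₂ F₂ → ℤ) (S0 S1 : Finset F₁)
    (hS0 : ∀ f ∈ S0, f ≠ 0) (hS1 : ∀ g ∈ S1, g ≠ 0) (n0 n1 : ℕ)
    (H0a : ∀ f ∈ S0, ∀ w : Place K₂ F₂,
      -(D w) - (n0 : ℤ) * max 0 (-(w.ord (φ t))) ≤ w.ord (φ f))
    (H0b : ∀ w : Place K₂ F₂, 0 ≤ w.ord (φ t) → ∃ f ∈ S0, w.ord (φ f) = -(D w))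
    (H1a : ∀ g ∈ S1, ∀ w : Place K₂ F₂,
      -(D w) - (n1 : ℤ) * max 0 (w.ord (φ t)) ≤ w.ord (φ g))
    (H1b : ∀ w : Place K₂ F₂, w.ord (φ t) ≤ 0 → ∃ g ∈ S1, w.ord (φ g) = -(D w))
    (hne0 : S0.Nonempty) (hne1 : S1.Nonempty) :
    ∃ P : LinePair K₁ t,
      (∀ w : Place K₂ F₂, φ t ∈ w.toValuationSubring →
        IsLeast {m : ℤ | ∃ f ∈ P.I0, f ≠ 0 ∧ w.ord (φ f) = m} (-(D w))) ∧
      (∀ w : Place K₂ F₂, φ t ∉ w.toValuationSubring →
        IsLeast {m : ℤ | ∃ f ∈ P.I1, f ≠ 0 ∧ w.ord (φ f) = m} (-(D w))) := by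
  have hinj : Function.Injective φ := φ.injective
  have hφt : φ t ≠ 0 := (map_ne_zero_iff φ hinj).2 ht
  obtain ⟨f₀, hf₀⟩ := hne0
  obtain ⟨g₀, hg₀⟩ := hne1
  refine ⟨mkPair (K := K₁) t ht (max n0 n1) S0 S1 ⟨f₀, hf₀, hS0 f₀ hf₀⟩ ⟨g₀, hg₀, hS1 g₀ hg₀⟩,
    ?_, ?_⟩
  · intro w hw
    rw [mkPair_I0]
    have hord : 0 ≤ w.ord (φ t) := by
      rcases (w.adicValuation_le_one_iff).1 (w.adicValuation_le_one_of_mem hw) with h | h
      · exact absurd h hφt
      · exact h
    refine isLeast_chart φ w (fun a => hφK a w) ht hw (D w) (le_max_right n0 n1) S0 S1 hS0 hS1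
      ?_ (fun g hg => H1a g hg w) (H0b w hord)
    intro f hf
    have := H0a f hf w
    rwa [max_eq_left (by omega : -(w.ord (φ t)) ≤ 0), mul_zero, sub_zero] at this
  · intro w hw
    rw [mkPair_I1]
    have hinv : φ t⁻¹ ∈ w.toValuationSubring := by
      rw [map_inv₀]
      exact (w.toValuationSubring.mem_or_inv_mem (φ t)).resolve_left hw
    have hordinv : w.ord (φ t⁻¹) = -(w.ord (φ t)) := by rw [map_inv₀, w.ord_inv]
    have hord : w.ord (φ t) ≤ 0 := by
      rcases (w.adicValuation_le_one_iff).1 (w.adicValuation_le_one_of_mem hinv) with h | h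
      · exact absurd h ((map_ne_zero_iff φ hinj).2 (inv_ne_zero ht))
      · rw [hordinv] at h; omega
    refine isLeast_chart φ w (fun a => hφK a w) (inv_ne_zero ht) hinv (D w) (le_max_left n0 n1)
      S1 S0 hS1 hS0 ?_ (fun f hf => ?_) (H1b w hord)
    · intro g hg
      have := H1a g hg w
      rwa [max_eq_left hord, mul_zero, sub_zero] at this
    · rw [hordinv]
      exact H0a f hf w

end Bound

end Fermat.Agent.T1.Dict22.ExhGeneric
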