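/-
Programme T1a (S19), brick G7 DICT, slice D-EXH (helper22), file 5:
**`Exhaust M`**: every finite subset of `JZero M` consists of classes of degree-`0` line pairs over one
number field `L ⊇ L₀`, normal over `ℚ`.

For a degree-`0` divisor `D` on the `ℚ̄`-curve, Riemann–Roch (`Approx.exists_family`) gives two finite
families of functions (one per chart) with orders `≥ -D` on their chart, exact somewhere at every
place, and bounded poles at the other chart; they descend to a number field (`Descent`), and the line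
pair they span has divisor exactly `D` (`ExhGeneric.exists_linePair`).
-/
import Mathlib
import Fermat.Agent.T1.Dict59.Iface
import Fermat.Agent.T1.Dict22.Approx
import Fermat.Agent.T1.Dict22.Descent
import Fermat.Agent.T1.Dict22.ExhGeneric
import Fermat.Agent.X0.HasCanDivInst

set_option autoImplicit false
set_option linter.unusedSectionVars false
set_option linter.style.haveILetI false
set_option synthInstance.maxHeartbeats 400000
set_option maxHeartbeats 1000000

noncomputable section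

open HahnSeries AlgebraicCurve ModularCurve IntermediateField
open Fermat.Agent.RED.Interface4 Fermat.Agent.RED.DESC Fermat.Agent.T1.Dict59

namespace Fermat.Agent.T1.Dict22.Exhaust

variable (M : ℕ)

/-- `cL` on constants. -/
theorem cL_algebraMap (L : IntermediateField ℚ Qbar) (a : L) :
    cL M L (algebraMap L (FK M L) a) = algebraMap Qbar (Fbar M) (algebraMap L Qbar a) := by
  apply Subtype.ext
  show coeffMap (algebraMap L Qbar) (algebraMap L (LaurentSeries L) a) =
    algebraMap Qbar (LaurentSeries Qbar) (algebraMap L Qbar a)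
  exact CoeffDescent1.coeffMap_algebraMap_of_ringHom _ a

/-- `cL ∘ cLL = cL`. -/
theorem cL_cLL {L₀ L : IntermediateField ℚ Qbar} (h : L₀ ≤ L) (x : FK M L₀) :
    cL M L (cLL M h x) = cL M L₀ x := by
  apply Subtype.ext
  show coeffMap (algebraMap L Qbar)
      (coeffMap (IntermediateField.inclusion h).toRingHom (x : LaurentSeries L₀)) =
    coeffMap (algebraMap L₀ Qbar) (x : LaurentSeries L₀)
  rw [coeffMap_coeffMap]
  exact coeffMap_congr (RingHom.ext fun c => rfl) _

/-- A nonconstant coordinate stays nonconstant over `ℚ̄`. -/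
theorem not_const_of_nonConst {L₀ : IntermediateField ℚ Qbar} (t₀ : FK M L₀)
    (ht₀ : NonConst M t₀) : ¬ ∃ c : Qbar, cL M L₀ t₀ = algebraMap Qbar (Fbar M) c := by
  rintro ⟨c, hc⟩
  apply ht₀
  set a : L₀ := (t₀ : LaurentSeries L₀).coeff 0 with ha
  have hca : c = algebraMap L₀ Qbar a := by
    have h1 : ((cL M L₀ t₀ : Fbar M) : LaurentSeries Qbar).coeff 0 =
        ((algebraMap Qbar (Fbar M) c : Fbar M) : LaurentSeries Qbar).coeff 0 := by rw [hc]
    have h2 : ((algebraMap Qbar (Fbar M) c : Fbar M) : LaurentSeries Qbar).coeff 0 = c := by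
      show (algebraMap Qbar (LaurentSeries Qbar) c).coeff 0 = c
      rw [algebraMap_laurentSeries_eq_single]
      exact HahnSeries.coeff_single_same 0 c
    have h3 : ((cL M L₀ t₀ : Fbar M) : LaurentSeries Qbar).coeff 0 = algebraMap L₀ Qbar a := by
      rw [coe_cL, coeffMap_coeff]
    rw [h2, h3] at h1
    exact h1.symm
  have h4 : t₀ = algebraMap L₀ (FK M L₀) a := by
    apply cL_injective M L₀
    rw [hc, cL_algebraMap, hca]
  rw [h4]
  exact isAlgebraic_algebraMap a

/-- The Riemann–Roch data attached to a point of `JZero M`. -/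
theorem exists_data [NeZero M] (tb : Fbar M) (htb0 : tb ≠ 0)
    (htb : ¬ ∃ c : Qbar, tb = algebraMap Qbar (Fbar M) c) (x : JZero M) :
    ∃ (D : Divisor Qbar (Fbar M)) (hD : Divisor.degree D = 0) (S0 S1 : Finset (Fbar M))
      (n0 n1 : ℕ),
      Pic0.mk ⟨D, Divisor.mem_degZero.2 hD⟩ = x ∧ S0.Nonempty ∧ S1.Nonempty ∧
      (∀ f ∈ S0, f ≠ 0) ∧ (∀ g ∈ S1, g ≠ 0) ∧
      (∀ f ∈ S0, ∀ w : Place Qbar (Fbar M),
        -(D w) - (n0 : ℤ) * max 0 (-(w.ord tb)) ≤ w.ord f) ∧
      (∀ w : Place Qbar (Fbar M), 0 ≤ w.ord tb → ∃ f ∈ S0, w.ord f = -(D w)) ∧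
      (∀ g ∈ S1, ∀ w : Place Qbar (Fbar M),
        -(D w) - (n1 : ℤ) * max 0 (w.ord tb) ≤ w.ord g) ∧
      (∀ w : Place Qbar (Fbar M), w.ord tb ≤ 0 → ∃ g ∈ S1, w.ord g = -(D w)) := by
  obtain ⟨⟨D, hDmem⟩, rfl⟩ := Pic0.mk_surjective x
  have hD : Divisor.degree D = 0 := Divisor.mem_degZero.1 hDmem
  haveI := Fermat.Agent.X0.HasCanDivInst.hasCanonicalDivisor' M
  have hgen := Fermat.Agent.X0.HasCanDivInst.isGen M
  obtain ⟨S0, n0, hne0, h00, h0a, h0b⟩ := Approx.exists_family hgen D htb0 htb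
  have htbinv0 : tb⁻¹ ≠ 0 := inv_ne_zero htb0
  have htbinv : ¬ ∃ c : Qbar, tb⁻¹ = algebraMap Qbar (Fbar M) c := by
    rintro ⟨c, hc⟩
    exact htb ⟨c⁻¹, by rw [map_inv₀, ← hc, inv_inv]⟩
  obtain ⟨S1, n1, hne1, h10, h1a, h1b⟩ := Approx.exists_family hgen D htbinv0 htbinv
  refine ⟨D, hD, S0, S1, n0, n1, rfl, hne0, hne1, h00, h10, h0a, h0b, ?_, ?_⟩
  · intro g hg w
    have := h1a g hg w
    rwa [w.ord_inv, neg_neg] at this
  · intro w hw
    apply h1b
    rw [w.ord_inv]
    omega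

/-- **(D-EXH)** exhaustion. -/
theorem exhaust [NeZero M] : Exhaust M := by
  intro L₀ _ t₀ ht₀ T
  classical
  have ht₀0 : t₀ ≠ 0 := by
    rintro rfl
    exact ht₀ isAlgebraic_zero
  have htb0 : cL M L₀ t₀ ≠ 0 := (map_ne_zero_iff _ (cL_injective M L₀)).2 ht₀0
  have htb := not_const_of_nonConst M t₀ ht₀
  choose D hD S0 S1 n0 n1 hx hS0ne hS1ne hS00 hS10 H0a H0b H1a H1b using
    exists_data M (cL M L₀ t₀) htb0 htb
  obtain ⟨L, h, hfin, hnorm, hL⟩ :=
    Descent.exists_common_descent M L₀ (T.biUnion fun x => S0 x ∪ S1 x)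
  refine ⟨L, h, hfin, hnorm, ?_⟩
  intro x hxT
  have hlift0 : ∀ f ∈ S0 x, ∃ f' : FK M L, cL M L f' = f := fun f hf =>
    hL f (Finset.mem_biUnion.2 ⟨x, hxT, Finset.mem_union_left _ hf⟩)
  have hlift1 : ∀ g ∈ S1 x, ∃ g' : FK M L, cL M L g' = g := fun g hg =>
    hL g (Finset.mem_biUnion.2 ⟨x, hxT, Finset.mem_union_right _ hg⟩)
  have hφt : cL M L (cLL M h t₀) = cL M L₀ t₀ := cL_cLL M h t₀
  have ht0 : cLL M h t₀ ≠ 0 := (map_ne_zero_iff _ (cLL M h).injective).2 ht₀0
  have hinj : Set.InjOn (cL M L) ((cL M L) ⁻¹' ↑(S0 x)) := (cL_injective M L).injOn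
  have hinj1 : Set.InjOn (cL M L) ((cL M L) ⁻¹' ↑(S1 x)) := (cL_injective M L).injOn
  have hne : ∀ {f : FK M L}, cL M L f ≠ 0 → f ≠ 0 := by
    intro f hf h0
    apply hf
    rw [h0, map_zero]
  obtain ⟨P, hP0, hP1⟩ := ExhGeneric.exists_linePair (K₁ := L) (K₂ := Qbar) (cL M L)
    (fun a w => by rw [cL_algebraMap]; exact w.algebraMap_mem' _)
    (cLL M h t₀) ht0 (fun w => D x w) ((S0 x).preimage (cL M L) hinj)
    ((S1 x).preimage (cL M L) hinj1)
    (fun f hf => hne (hS00 x _ (Finset.mem_preimage.1 hf)))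
    (fun g hg => hne (hS10 x _ (Finset.mem_preimage.1 hg))) (n0 x) (n1 x)
    (fun f hf w => by rw [hφt]; exact H0a x _ (Finset.mem_preimage.1 hf) w)
    (fun w hw => by
      rw [hφt] at hw
      obtain ⟨fb, hfb, he⟩ := H0b x w hw
      obtain ⟨f', hf'⟩ := hlift0 fb hfb
      exact ⟨f', Finset.mem_preimage.2 (hf' ▸ hfb), hf' ▸ he⟩)
    (fun g hg w => by rw [hφt]; exact H1a x _ (Finset.mem_preimage.1 hg) w)
    (fun w hw => by
      rw [hφt] at hw
      obtain ⟨gb, hgb, he⟩ := H1b x w hw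
      obtain ⟨g', hg'⟩ := hlift1 gb hgb
      exact ⟨g', Finset.mem_preimage.2 (hg' ▸ hgb), hg' ▸ he⟩)
    (by
      obtain ⟨fb, hfb⟩ := hS0ne x
      obtain ⟨f', hf'⟩ := hlift0 fb hfb
      exact ⟨f', Finset.mem_preimage.2 (hf' ▸ hfb)⟩)
    (by
      obtain ⟨gb, hgb⟩ := hS1ne x
      obtain ⟨g', hg'⟩ := hlift1 gb hgb
      exact ⟨g', Finset.mem_preimage.2 (hg' ▸ hgb)⟩)
  have hdiv : ∀ w : Place Qbar (Fbar M), LinePair.divFun P w = D x w := by
    intro w
    unfold LinePair.divFun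
    split_ifs with hw
    · have h1 : LinePair.ordAt w (P.I0 : Set (FK M L)) = -(D x w) := (hP0 w hw).csInf_eq
      rw [h1, neg_neg]
    · have h1 : LinePair.ordAt w (P.I1 : Set (FK M L)) = -(D x w) := (hP1 w hw).csInf_eq
      rw [h1, neg_neg]
  have hsupp : (Function.support (LinePair.divFun P)).Finite := by
    have h1 : Function.support (LinePair.divFun P) = ↑(D x).support := by
      ext w
      rw [Function.mem_support, hdiv, Finset.mem_coe, Finsupp.mem_support_iff]
    rw [h1]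
    exact Finset.finite_toSet _
  have hdivL : LinePair.divL P = D x := by
    unfold LinePair.divL
    rw [dif_pos hsupp]
    ext w
    exact hdiv w
  have hdeg : LinePair.deg P = 0 := by
    unfold LinePair.deg
    rw [hdivL]
    exact hD x
  refine ⟨P, hdeg, ?_⟩
  unfold LinePair.cls
  rw [dif_pos hdeg, ← hx x]
  congr 1
  exact Subtype.ext hdivL

end Fermat.Agent.T1.Dict22.Exhaust
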