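/-
Programme T1a (S19), brick G7 DICT (helper22): **a coordinate of `L·F_M` stays a coordinate of
`ℚ̄·F_M`**: `IsCoord M t` (`= X0.FF.IsGen L t`) implies `X0.FF.IsGen ℚ̄ (cL M L t)`.

* transcendence: an element of `ℚ̄·F_M` algebraic over the algebraically closed field `ℚ̄` is a
  constant; a constant `cL t` forces `t` to be the constant `t.coeff 0`;
* finiteness: `ℚ̄·F_M` is the additive span of the products `cL e · b` (`ChartSpan.rep`), so the image of
  a spanning set of `L·F_M` over `L(t)` spans `ℚ̄·F_M` over `ℚ̄(cL t)` (`finite_of_rep`, abstract).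
-/
import Mathlib
import Fermat.Agent.T1.Dict59.Iface2
import Fermat.Agent.T1.Dict22.ChartSpan

set_option autoImplicit false
set_option linter.unusedSectionVars false
set_option linter.style.haveILetI false
set_option synthInstance.maxHeartbeats 400000
set_option maxHeartbeats 1000000

noncomputable section

open HahnSeries AlgebraicCurve ModularCurve IntermediateField
open Fermat.Agent.RED.Interface4 Fermat.Agent.RED.DESC Fermat.Agent.T1.Dict59

namespace Fermat.Agent.T1.Dict22.IsGenBar

/-! ### Abstract part -/

section Abstract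

variable {K K' F F' : Type*} [Field K] [Field K'] [Field F] [Field F'] [Algebra K K']
  [Algebra K F] [Algebra K' F'] (ι : F →+* F')
  (hι : ∀ a : K, ι (algebraMap K F a) = algebraMap K' F' (algebraMap K K' a))

include hι in
/-- `ι` maps `K(t)` into `K'(ι t)`. -/
theorem map_mem_adjoin (t : F) {a : F} (ha : a ∈ K⟮t⟯) : ι a ∈ K'⟮ι t⟯ := by
  induction ha using IntermediateField.adjoin_induction with
  | mem x hx =>
    rw [Set.mem_singleton_iff] at hx
    rw [hx]
    exact IntermediateField.mem_adjoin_simple_self K' (ι t)
  | algebraMap x =>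
    rw [hι]
    exact IntermediateField.algebraMap_mem _ _
  | add x y _ _ hx hy => rw [map_add]; exact add_mem hx hy
  | inv x _ hx => rw [map_inv₀]; exact inv_mem hx
  | mul x y _ _ hx hy => rw [map_mul]; exact mul_mem hx hy

include hι in
/-- If `F'` is the additive span of the products `ι e · b` and `F` is finite over `K(t)`, then `F'` is
finite over `K'(ι t)`. -/
theorem finite_of_rep (hrep : ∀ y : F', y ∈ AddSubmonoid.closure (ChartSpanGen.genSet (K' := K') ι))
    (t : F) [hfin : FiniteDimensional K⟮t⟯ F] : FiniteDimensional K'⟮ι t⟯ F' := by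
  classical
  obtain ⟨s, hs⟩ := (Module.finite_def.1 hfin)
  refine Module.finite_def.2 ⟨s.image ι, ?_⟩
  rw [eq_top_iff]
  rintro y -
  induction hrep y using AddSubmonoid.closure_induction with
  | mem x hx =>
    obtain ⟨e, b, rfl⟩ := hx
    have he : e ∈ Submodule.span K⟮t⟯ (s : Set F) := by rw [hs]; exact Submodule.mem_top
    induction he using Submodule.span_induction with
    | mem e he =>
      have h1 : ι e * algebraMap K' F' b =
          (⟨algebraMap K' F' b, IntermediateField.algebraMap_mem _ b⟩ : K'⟮ι t⟯) • ι e := by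
        rw [mul_comm]; rfl
      rw [h1]
      refine Submodule.smul_mem _ _ (Submodule.subset_span ?_)
      rw [Finset.coe_image]
      exact ⟨e, he, rfl⟩
    | zero => rw [map_zero, zero_mul]; exact zero_mem _
    | add e e' _ _ he he' => rw [map_add, add_mul]; exact add_mem he he'
    | smul a e _ he =>
      have h1 : ι (a • e) * algebraMap K' F' b =
          (⟨ι (a : F), map_mem_adjoin ι hι t a.2⟩ : K'⟮ι t⟯) • (ι e * algebraMap K' F' b) := by
        have h2 : a • e = (a : F) * e := rfl
        rw [h2, map_mul, mul_assoc]; rfl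
      rw [h1]
      exact Submodule.smul_mem _ _ he
  | zero => exact zero_mem _
  | add x y _ _ hx hy => exact add_mem hx hy

end Abstract

/-! ### Concrete part -/

variable (M : ℕ) (L : IntermediateField ℚ Qbar)

/-- A transcendental coordinate is not a constant of `ℚ̄`. -/
theorem not_const_cL (t : FK M L) (ht : Transcendental L t) :
    ¬ ∃ c : Qbar, cL M L t = algebraMap Qbar (Fbar M) c := by
  rintro ⟨c, hc⟩
  apply ht
  set a : L := (t : LaurentSeries L).coeff 0 with ha
  have hca : c = algebraMap L Qbar a := by
    have h1 : ((cL M L t : Fbar M) : LaurentSeries Qbar).coeff 0 =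
        ((algebraMap Qbar (Fbar M) c : Fbar M) : LaurentSeries Qbar).coeff 0 := by rw [hc]
    have h2 : ((algebraMap Qbar (Fbar M) c : Fbar M) : LaurentSeries Qbar).coeff 0 = c := by
      show (algebraMap Qbar (LaurentSeries Qbar) c).coeff 0 = c
      rw [algebraMap_laurentSeries_eq_single]
      exact HahnSeries.coeff_single_same 0 c
    have h3 : ((cL M L t : Fbar M) : LaurentSeries Qbar).coeff 0 = algebraMap L Qbar a := by
      rw [coe_cL, coeffMap_coeff]
    rw [h2, h3] at h1
    exact h1.symm
  have h4 : t = algebraMap L (FK M L) a := by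
    apply cL_injective M L
    rw [hc, ChartSpan.cL_const, hca]
  rw [h4]
  exact isAlgebraic_algebraMap a

/-- A transcendental coordinate stays transcendental over `ℚ̄`. -/
theorem transcendental_cL (t : FK M L) (ht : Transcendental L t) :
    Transcendental Qbar (cL M L t) := by
  intro halg
  apply not_const_cL M L t ht
  have hint : IsIntegral Qbar (cL M L t) := halg.isIntegral
  have hirr := minpoly.irreducible hint
  have hdeg := IsAlgClosed.degree_eq_one_of_irreducible Qbar hirr
  obtain ⟨c, hc⟩ := minpoly.mem_range_of_degree_eq_one Qbar (cL M L t) hdeg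
  exact ⟨c, hc.symm⟩

/-- **A coordinate of `L·F_M` is a coordinate of `ℚ̄·F_M`.** -/
theorem isGen_cL (t : FK M L) (ht : IsCoord M t) :
    Fermat.Agent.X0.FF.IsGen Qbar (cL M L t) := by
  haveI := ht.finite
  exact ⟨transcendental_cL M L t ht.transcendental,
    finite_of_rep (cL M L) (ChartSpan.cL_const M L) (ChartSpan.rep M L) t⟩

end Fermat.Agent.T1.Dict22.IsGenBar
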