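/-
Programme T1a (S19), brick G7 DICT (helper22): **uniqueness and base change of values at a place.**

* `value_unique`     : the value `a ∈ L` of `x ∈ L·F_M` at `w` (`x ≡ a` at `w`) is unique;
* `value_baseChange` : for `L ≤ L'`, the value of `cLL x` at `w` is the image of the value of `x`;
* `isPt_unique`, `isPt_baseChange` : the same for "points" `q : B → L` of a family `f : B → L·F_M`.
-/
import Mathlib
import Fermat.Agent.T1.Dict59.Iface2
import Fermat.Agent.T1.Dict22.ChartSpan
import Fermat.Agent.T1.Dict67.BaseChange
import Fermat.Agent.X0.FFDict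

set_option autoImplicit false
set_option linter.unusedSectionVars false
set_option linter.style.haveILetI false
set_option synthInstance.maxHeartbeats 400000
set_option maxHeartbeats 1000000

noncomputable section

open HahnSeries AlgebraicCurve ModularCurve IntermediateField
open Fermat.Agent.RED.Interface4 Fermat.Agent.RED.DESC Fermat.Agent.T1.Dict59
open Fermat.Agent.X0.FF

namespace Fermat.Agent.T1.Dict22.RatValue

variable (M : ℕ)

/-- **Uniqueness of the value at a place.** -/
theorem value_unique (L : IntermediateField ℚ Qbar) (w : Place Qbar (Fbar M)) (x : FK M L)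
    (a a' : L)
    (h : x = algebraMap L (FK M L) a ∨ 0 < w.ord (cL M L (x - algebraMap L (FK M L) a)))
    (h' : x = algebraMap L (FK M L) a' ∨ 0 < w.ord (cL M L (x - algebraMap L (FK M L) a'))) :
    a = a' := by
  by_contra hne
  have hconst : ∀ b : L, cL M L (algebraMap L (FK M L) b) =
      algebraMap Qbar (Fbar M) (algebraMap L Qbar b) := ChartSpan.cL_const M L
  -- the constant `a' - a` is nonzero, of order `0`
  have hd0 : algebraMap Qbar (Fbar M) (algebraMap L Qbar (a' - a)) ≠ 0 := by
    rw [Ne, map_eq_zero, map_eq_zero, sub_eq_zero]
    exact fun h => hne h.symm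
  have hord : w.ord (algebraMap Qbar (Fbar M) (algebraMap L Qbar (a' - a))) = 0 :=
    ord_algebraMap w _
  -- but it is `(x - a) - (x - a')`
  have hd : algebraMap Qbar (Fbar M) (algebraMap L Qbar (a' - a)) =
      cL M L (x - algebraMap L (FK M L) a) - cL M L (x - algebraMap L (FK M L) a') := by
    have e1 : cL M L (x - algebraMap L (FK M L) a) =
        cL M L x - algebraMap Qbar (Fbar M) (algebraMap L Qbar a) := by rw [map_sub, hconst]
    have e2 : cL M L (x - algebraMap L (FK M L) a') =
        cL M L x - algebraMap Qbar (Fbar M) (algebraMap L Qbar a') := by rw [map_sub, hconst]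
    rw [e1, e2, map_sub, map_sub]; ring
  rcases h with h | h
  · rcases h' with h' | h'
    · apply hne
      have := h.symm.trans h'
      exact (algebraMap L (FK M L)).injective this
    · rw [h, sub_self, map_zero, zero_sub] at hd
      rw [hd, ord_neg] at hord
      rw [h] at h'
      omega
  · rcases h' with h' | h'
    · rw [h', sub_self, map_zero, sub_zero] at hd
      rw [hd] at hord
      rw [h'] at h
      omega
    · have h3 := ord_sub_ge w (f := cL M L (x - algebraMap L (FK M L) a))
        (g := cL M L (x - algebraMap L (FK M L) a')) (by rw [← hd]; exact hd0)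
      rw [← hd, hord] at h3
      have h4 := lt_min h h'
      omega

/-- `cLL` on constants. -/
theorem cLL_const {L L' : IntermediateField ℚ Qbar} (h : L ≤ L') (a : L) :
    cLL M h (algebraMap L (FK M L) a) =
      algebraMap L' (FK M L') (IntermediateField.inclusion h a) := by
  apply Subtype.ext
  show coeffMap (IntermediateField.inclusion h).toRingHom (algebraMap L (LaurentSeries L) a) =
    algebraMap L' (LaurentSeries L') (IntermediateField.inclusion h a)
  exact CoeffDescent1.coeffMap_algebraMap_of_ringHom _ a

/-- **Base change of values.** -/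
theorem value_baseChange {L L' : IntermediateField ℚ Qbar} (h : L ≤ L')
    (w : Place Qbar (Fbar M)) (x : FK M L) (a : L)
    (hx : x = algebraMap L (FK M L) a ∨ 0 < w.ord (cL M L (x - algebraMap L (FK M L) a))) :
    cLL M h x = algebraMap L' (FK M L') (IntermediateField.inclusion h a) ∨
      0 < w.ord (cL M L' (cLL M h x -
        algebraMap L' (FK M L') (IntermediateField.inclusion h a))) := by
  rcases hx with hx | hx
  · left
    rw [hx, cLL_const]
  · right
    rw [← cLL_const, ← map_sub, Fermat.Agent.T1.Dict67.cL_cLL]
    exact hx

/-- A family of functions has at most one point at a place. -/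
theorem isPt_unique {B : Type*} (L : IntermediateField ℚ Qbar) (w : Place Qbar (Fbar M))
    (f : B → FK M L) (q q' : B → L)
    (h : ∀ b, f b = algebraMap L (FK M L) (q b) ∨
      0 < w.ord (cL M L (f b - algebraMap L (FK M L) (q b))))
    (h' : ∀ b, f b = algebraMap L (FK M L) (q' b) ∨
      0 < w.ord (cL M L (f b - algebraMap L (FK M L) (q' b)))) : q = q' :=
  funext fun b => value_unique M L w (f b) (q b) (q' b) (h b) (h' b)

/-- Base change of points. -/
theorem isPt_baseChange {B : Type*} {L L' : IntermediateField ℚ Qbar} (hLL' : L ≤ L')
    (w : Place Qbar (Fbar M)) (f : B → FK M L) (q : B → L)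
    (h : ∀ b, f b = algebraMap L (FK M L) (q b) ∨
      0 < w.ord (cL M L (f b - algebraMap L (FK M L) (q b)))) :
    ∀ b, cLL M hLL' (f b) = algebraMap L' (FK M L') (IntermediateField.inclusion hLL' (q b)) ∨
      0 < w.ord (cL M L' (cLL M hLL' (f b) -
        algebraMap L' (FK M L') (IntermediateField.inclusion hLL' (q b)))) :=
  fun b => value_baseChange M hLL' w (f b) (q b) (h b)

end Fermat.Agent.T1.Dict22.RatValue
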