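/-
Programme T1a (S19), brick G7 DICT (helper22): **(P4) Galois transport / uniqueness / base change of
points**, in the vocabulary of `Dict59/Level.lean` (`IsPtOf0`, `IsPtOf1`).
-/
import Mathlib
import Fermat.Agent.T1.Dict59.Level
import Fermat.Agent.T1.RedIface75
import Fermat.Agent.T1.Dict22.PtGal
import Fermat.Agent.T1.Dict22.RatValueUniq

set_option autoImplicit false
set_option linter.unusedSectionVars false
set_option linter.style.haveILetI false
set_option synthInstance.maxHeartbeats 400000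
set_option maxHeartbeats 1000000

noncomputable section

open HahnSeries AlgebraicCurve ModularCurve IntermediateField TensorProduct
open Fermat.Agent.RED.Interface4
open Fermat.Agent.Jac Fermat.Agent.Jac.BaseChange75 Fermat.Agent.T1.Adapt96
open Fermat.Agent.T1.Dict59 Fermat.Agent.T1.Dict67 Fermat.Agent.T1.RedIface75
open scoped Fermat.Agent.Jac.BaseChange75

namespace Fermat.Agent.T1.Dict22.PtGal

variable {W B0 B1 B01 : Type} [CommRing W] [CommRing B0] [CommRing B1] [CommRing B01]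
  [Algebra W B0] [Algebra W B1] [Algebra W B01] [Algebra B0 B01] [Algebra B1 B01]
  [IsScalarTower W B0 B01] [IsScalarTower W B1 B01]
  (c0 : TwoChart W B0 B1 B01)
  {M : ℕ} {L : IntermediateField ℚ Qbar} [Algebra W L] {t : FK M L}

/-- **(P4)**, chart 0. -/
theorem isPtOf0_galois [Normal ℚ L] (E : ChartIso (c0.baseChange L) t) (σ : GQ)
    (S : ChartAut c0)
    (hcompat0 : ∀ b : B0, E.ι0 ((1 : L) ⊗ₜ[W] S.σ0 b) =
      arith M L (σ.restrictNormal L) (E.ι0 ((1 : L) ⊗ₜ[W] b)))
    (q q' : B0 →ₐ[W] L) (hq : ∀ b, q' (S.σ0 b) = σ.restrictNormal L (q b))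
    (hsurj : Function.Surjective S.σ0) (w : Place Qbar (Fbar M)) (h : IsPtOf0 c0 E w q) :
    IsPtOf0 c0 E (gal M σ • w) q' :=
  isPt_galois M L σ w (fun b => E.ι0 ((1 : L) ⊗ₜ[W] b)) S.σ0 hsurj hcompat0 (fun b => q b)
    (fun b => q' b) hq h

/-- **(P4)**, chart 1. -/
theorem isPtOf1_galois [Normal ℚ L] (E : ChartIso (c0.baseChange L) t) (σ : GQ)
    (S : ChartAut c0)
    (hcompat1 : ∀ b : B1, E.ι1 ((1 : L) ⊗ₜ[W] S.σ1 b) =
      arith M L (σ.restrictNormal L) (E.ι1 ((1 : L) ⊗ₜ[W] b)))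
    (q q' : B1 →ₐ[W] L) (hq : ∀ b, q' (S.σ1 b) = σ.restrictNormal L (q b))
    (hsurj : Function.Surjective S.σ1) (w : Place Qbar (Fbar M)) (h : IsPtOf1 c0 E w q) :
    IsPtOf1 c0 E (gal M σ • w) q' :=
  isPt_galois M L σ w (fun b => E.ι1 ((1 : L) ⊗ₜ[W] b)) S.σ1 hsurj hcompat1 (fun b => q b)
    (fun b => q' b) hq h

/-- The point of chart 0 under a place is unique. -/
theorem isPtOf0_unique (E : ChartIso (c0.baseChange L) t) (w : Place Qbar (Fbar M))
    (q q' : B0 →ₐ[W] L) (h : IsPtOf0 c0 E w q) (h' : IsPtOf0 c0 E w q') : q = q' := by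
  have := RatValue.isPt_unique M L w (fun b => E.ι0 ((1 : L) ⊗ₜ[W] b)) (fun b => q b)
    (fun b => q' b) h h'
  exact AlgHom.ext fun b => congrFun this b

/-- The point of chart 1 under a place is unique. -/
theorem isPtOf1_unique (E : ChartIso (c0.baseChange L) t) (w : Place Qbar (Fbar M))
    (q q' : B1 →ₐ[W] L) (h : IsPtOf1 c0 E w q) (h' : IsPtOf1 c0 E w q') : q = q' := by
  have := RatValue.isPt_unique M L w (fun b => E.ι1 ((1 : L) ⊗ₜ[W] b)) (fun b => q b)
    (fun b => q' b) h h'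
  exact AlgHom.ext fun b => congrFun this b

end Fermat.Agent.T1.Dict22.PtGal
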